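import Mathlib
import Fermat.Agent.TT.Geom.Spec
import Fermat.Agent.TT.Red2.Red2All
import Fermat.Agent.G.FF.Main
import Fermat.Agent.SS.Val.ModDeg

/-!
# PROGRAM MR (S44: Mazur-Ribet for the Frey package), block `mrm`: INTERFACE FILE (statements only)

Owner: helper26 (lead of the block until helper20 reports), second: helper20.
Namespace `Fermat.Agent.MR`, prefix `mrm` / `Mrm`.

Block `mrm` = the slope vector `μ`, the specialisation `sp`, their Hecke-equivariance
(level `N ℓ`), the Eisenstein vector, and the endgame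
"(W1) + (THICK) + Hecke-eigen + non-Eisenstein ⟹ a Hecke-eigen Kummer function on `X₀(M)_k`".

Everything is stated on FUNCTIONS (Kummer functions `f` with `p D = div f`), never on an operator
on classes in characteristic `p`:

* `MrmOrdAt`, `mrmSlope` : **(M0)** the order at a place `Q` of the residue curve of the reduction
  of the `V`-normalisation of `f ∈ Fˣ`  (`m_s(f) := mrmSlope … f (ν₁ s)`);
* `MrmSlopeSpec` : (M0) well defined, additive, kills constants;
* `MrmNormRedSpec` : **(M1-abs)** the norm commutes with the reduction for an unramified extension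
  of valuation rings of full residue degree (pure valuation theory);
* `mrmAlB`, `mrmBeB`, `mrmTbarFun` : the degeneracy maps `ᾱ, β̄ : F_k(M) → F_k(M ℓ)` and the
  Hecke operator on functions `T̄_ℓ ψ = N_ᾱ (β̄ ψ)` in characteristic `p`;
* `MrmHeckeRedSpec` : **(M1)** `red₁ (T_ℓ f) = T̄_ℓ (red₁ f)` for `V₁`-units (`T_ℓ f = gHeckeFun`);
* `MrmBalance` : the INPUT from `mrs`/`mrt` (thickness at the two levels, 4136(C)): nodes are
  stable under the correspondence and `e(ᾱ y) e_β̄(y) = e(β̄ y) e_ᾱ(y)`;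
* `MrmEisSpec` : **(M3)** the Eisenstein vector: on the line `e_s m_s = c`, `T̄_ℓ` is `ℓ + 1`;
* `MrmDisc` : the INPUT from `mrn`/`mrs` (smooth-point slope formula = divisor formula of a
  residue disc for the `V₁`-normalisation of ANY function);
* `MrmMainSpec` : **the output of the block**, consumed by `mra` (`MR/Top.lean`) and `mro`.
-/

set_option autoImplicit false
set_option linter.unusedSectionVars false
set_option linter.unusedVariables false
set_option linter.style.haveILetI false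

noncomputable section

namespace Fermat.Agent.MR

open AlgebraicCurve IsLocalRing ModularCurve Fermat.Agent.G Fermat.Agent.FF Fermat.Agent.TT
  Fermat.Agent.SS

/-! ## (M0) the slope of a function at a place of the residue curve -/

section Slope

variable (K : Type*) [Field K] {F : Type*} [Field F] [Algebra K F]
variable {k : Type*} [Field k] {F₁ : Type*} [Field F₁] [Algebra k F₁]

/-- `n` is the order at `Q` of the reduction of a `V`-normalisation `c f` of `f`
(`c` a non-zero constant making `c f` a unit of `V`). -/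
def MrmOrdAt (V : ValuationSubring F) (red : V →+* F₁) (f : F) (Q : Place k F₁) (n : ℤ) : Prop :=
  ∃ (c : K) (h : TtalIsU V (algebraMap K F c * f)), c ≠ 0 ∧
    Q.ord (red ⟨algebraMap K F c * f, h.1⟩) = n

open Classical in
/-- **the slope** `m_Q(f)` (`0` if `f` has no normalisation, e.g. `f = 0`). -/
def mrmSlope (V : ValuationSubring F) (red : V →+* F₁) (f : F) (Q : Place k F₁) : ℤ :=
  if h : ∃ n : ℤ, MrmOrdAt K V red f Q n then h.choose else 0

/-- **(M0)**: under the ring axioms of the model (every function has a normalisation; unit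
constants reduce to non-zero constants), the slope is well defined, additive and kills constants.
[The USABLE form is the lemma family `mrm_slope_*` of `MR/M/Slope.lean`, from helper1's package
`MrpOne A V red`; this `Prop` is kept for reference only.] -/
def MrmSlopeSpec : Prop :=
  ∀ (V : ValuationSubring F) (red : V →+* F₁),
    (∀ f : F, f ≠ 0 → ∃ c : K, c ≠ 0 ∧ TtalIsU V (algebraMap K F c * f)) →
    (∀ x : V, red x = 0 ↔ (x : F) ∈ V.nonunits) →
    (∀ (c : K) (h : TtalIsU V (algebraMap K F c)), c ≠ 0 → ∃ a : k, a ≠ 0 ∧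
      red ⟨algebraMap K F c, h.1⟩ = algebraMap k F₁ a) →
    (∀ (f : F) (Q : Place k F₁), f ≠ 0 → MrmOrdAt K V red f Q (mrmSlope K V red f Q)) ∧
    (∀ (f : F) (Q : Place k F₁) (n : ℤ), MrmOrdAt K V red f Q n → n = mrmSlope K V red f Q) ∧
    (∀ (f g : F) (Q : Place k F₁), f ≠ 0 → g ≠ 0 →
      mrmSlope K V red (f * g) Q = mrmSlope K V red f Q + mrmSlope K V red g Q) ∧
    (∀ (c : K) (Q : Place k F₁), mrmSlope K V red (algebraMap K F c) Q = 0) ∧
    (∀ (f : F) (n : ℕ) (Q : Place k F₁), f ≠ 0 →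
      mrmSlope K V red (f ^ n) Q = n * mrmSlope K V red f Q)

end Slope

/-! ## (M1-abs) norms and reductions -/

/-- **(M1-abs)**: `F'/F` finite, `V' ∩ F = V`, `red : V ↠ E`, `red' : V' ↠ E'` with kernels the
maximal ideals, `E'/E` compatible with the reductions, and `[F' : F] ≤ [E' : E] < ∞`.  Then the
norm of an element of `V'` lies in `V` and reduces to the norm of its reduction. -/
def MrmNormRedSpec : Prop :=
  ∀ (F F' E E' : Type) [Field F] [Field F'] [Field E] [Field E'] [Algebra F F'] [Algebra E E']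
    [FiniteDimensional F F'] [FiniteDimensional E E']
    (V : ValuationSubring F) (V' : ValuationSubring F') (red : V →+* E) (red' : V' →+* E'),
    (∀ x : F, x ∈ V ↔ algebraMap F F' x ∈ V') →
    Function.Surjective red → Function.Surjective red' →
    (∀ x : V, red x = 0 ↔ (x : F) ∈ V.nonunits) →
    (∀ x : V', red' x = 0 ↔ (x : F') ∈ V'.nonunits) →
    (∀ (x : V) (h : algebraMap F F' (x : F) ∈ V'),
      red' ⟨algebraMap F F' (x : F), h⟩ = algebraMap E E' (red x)) →
    Module.finrank F F' ≤ Module.finrank E E' →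
    ∀ y : V', ∃ h : Algebra.norm F (y : F') ∈ V,
      red ⟨Algebra.norm F (y : F'), h⟩ = Algebra.norm E (red' y)

/-! ## The degeneracy maps and the Hecke operator on functions in characteristic `p` -/

section CharP

variable (k : Type*) [Field k] (M ℓ : ℕ) [NeZero M] [NeZero ℓ]

/-- `ᾱ : F_k(M) → F_k(M ℓ)`, the inclusion of subfields of `k((q))`. -/
abbrev mrmAlB : modularFunctionFieldFullC k M →ₐ[k] modularFunctionFieldFullC k (M * ℓ) :=
  ssvmdIncl k M ℓ

/-- `β̄ : F_k(M) → F_k(M ℓ)`, `x ↦ x(q^ℓ)`. -/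
def mrmBeB : modularFunctionFieldFullC k M →ₐ[k] modularFunctionFieldFullC k (M * ℓ) :=
  { ssvmfPhi k M ℓ with
    commutes' := fun a => Subtype.ext <| by
      show qExpand k ℓ (algebraMap k (LaurentSeries k) a) = algebraMap k (LaurentSeries k) a
      rw [algebraMap_laurentSeries_eq_single, qExpand_single, mul_zero] }

theorem mrmBeB_coe (x : modularFunctionFieldFullC k M) :
    ((mrmBeB k M ℓ x : modularFunctionFieldFullC k (M * ℓ)) : LaurentSeries k) =
      qExpand k ℓ (x : LaurentSeries k) := rfl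

/-- **the Hecke operator on functions in characteristic `p`**: `T̄_ℓ ψ = N_ᾱ (β̄ ψ)`. -/
def mrmTbarFun (ψ : modularFunctionFieldFullC k M) : modularFunctionFieldFullC k M :=
  letI := algebraAlong (mrmAlB k M ℓ)
  Algebra.norm (modularFunctionFieldFullC k M) (mrmBeB k M ℓ ψ)

end CharP

/-! ## The concrete statements at level `M p` -/

section Concrete

local notation "Qb" => AlgebraicClosure ℚ

variable (M : ℕ) [NeZero M] {p : ℕ} [Fact p.Prime] [NeZero p]
variable (A : ValuationSubring Qb) (hpM : ¬ p ∣ M) (hA : A.LiesOverPrime p)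

/-- the residue curve `F_k(M)`. -/
abbrev MrmFk : Type := ↥(modularFunctionFieldFullC (ResidueField A) M)

/-- the slope of `f ∈ F_ℚ̄(M p)` at a place `Q` of the FIRST component. -/
abbrev mrmSlope₁ (f : modularFunctionFieldBar (M * p)) (Q : Place (ResidueField A) (MrmFk M A)) :
    ℤ :=
  mrmSlope Qb (ttrV1 M A hpM hA) (ttraRed1 M A hpM hA) f Q

/-- **(M1)** `red₁ (T_ℓ f) = T̄_ℓ (red₁ f)` for units of `V₁`, `ℓ ∤ M p` prime
(`T_ℓ f = gHeckeFun (M p) ℓ f = N_α (β f)`). -/
def MrmHeckeRedSpec : Prop :=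
  ∀ (ℓ : ℕ) [NeZero ℓ], ℓ.Prime → ¬ ℓ ∣ M * p →
    ∀ (f : modularFunctionFieldBar (M * p)) (hf : TtalIsU (ttrV1 M A hpM hA) f),
      ∃ h : TtalIsU (ttrV1 M A hpM hA) (gHeckeFun (M * p) ℓ f),
        ttraRed1 M A hpM hA ⟨gHeckeFun (M * p) ℓ f, h.1⟩ =
          mrmTbarFun (ResidueField A) M ℓ (ttraRed1 M A hpM hA ⟨f, hf.1⟩)

/-- **INPUT from `mrs` / `mrt` (thickness at the levels `M p` and `M ℓ p`, 4136(C))**: `node` the
set of nodes of the first component, `e` the thickness.  A place `y` of `F_k(M ℓ)` lies over a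
node along `ᾱ` iff it does along `β̄`, and then `e(ᾱ y) e_β̄(y) = e(β̄ y) e_ᾱ(y)`. -/
def MrmBalance (node : Set (Place (ResidueField A) (MrmFk M A)))
    (e : Place (ResidueField A) (MrmFk M A) → ℕ) (ℓ : ℕ) [NeZero ℓ]
    (hα : (mrmAlB (ResidueField A) M ℓ).toRingHom.IsIntegral)
    (hβ : (mrmBeB (ResidueField A) M ℓ).toRingHom.IsIntegral) : Prop :=
  ∀ y : Place (ResidueField A) ↥(modularFunctionFieldFullC (ResidueField A) (M * ℓ)),
    (y.restrictAlong (mrmAlB (ResidueField A) M ℓ) hα ∈ node ↔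
      y.restrictAlong (mrmBeB (ResidueField A) M ℓ) hβ ∈ node) ∧
    (y.restrictAlong (mrmAlB (ResidueField A) M ℓ) hα ∈ node →
      e (y.restrictAlong (mrmAlB (ResidueField A) M ℓ) hα) *
          y.ramificationIndexAlong (mrmBeB (ResidueField A) M ℓ) =
        e (y.restrictAlong (mrmBeB (ResidueField A) M ℓ) hβ) *
          y.ramificationIndexAlong (mrmAlB (ResidueField A) M ℓ))

/-- **(M3) THE EISENSTEIN VECTOR**: if the orders of `ψ` at the nodes lie on the line
`e_Q ord_Q ψ ≡ c (mod p)` (and `p ∤ e_Q`), then `ord_Q (T̄_ℓ ψ) ≡ (ℓ + 1) ord_Q ψ (mod p)` at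
every node `Q`. -/
def MrmEisSpec : Prop :=
  ∀ (node : Set (Place (ResidueField A) (MrmFk M A)))
    (e : Place (ResidueField A) (MrmFk M A) → ℕ) (ℓ : ℕ) [NeZero ℓ], ℓ.Prime → ¬ ℓ ∣ M * p →
    ∀ (hα : (mrmAlB (ResidueField A) M ℓ).toRingHom.IsIntegral)
      (hβ : (mrmBeB (ResidueField A) M ℓ).toRingHom.IsIntegral),
      MrmBalance M A node e ℓ hα hβ → (∀ Q ∈ node, ¬ p ∣ e Q) →
      ∀ (ψ : MrmFk M A) (c : ℤ), ψ ≠ 0 →
        (∀ Q ∈ node, (p : ℤ) ∣ (e Q : ℤ) * Q.ord ψ - c) →
        ∀ Q ∈ node, (p : ℤ) ∣ Q.ord (mrmTbarFun (ResidueField A) M ℓ ψ) - ((ℓ : ℤ) + 1) * Q.ord ψ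

open Classical in
/-- **INPUT from `mrn` / `mrs` (the smooth-point slope formula)**: off the nodes, the order of
the reduction of a `V₁`-unit is the sum of its orders over the residue disc `disc Q`
(the finite set of its zeros and poles reducing to `Q`). -/
def MrmDisc (node : Set (Place (ResidueField A) (MrmFk M A)))
    (disc : Place (ResidueField A) (MrmFk M A) →
      Set (Place Qb ↥(modularFunctionFieldBar (M * p)))) : Prop :=
  ∀ (f : modularFunctionFieldBar (M * p)) (hf : TtalIsU (ttrV1 M A hpM hA) f)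
    (D : Divisor Qb ↥(modularFunctionFieldBar (M * p))), (∀ P, D P = P.ord f) →
    ∀ Q : Place (ResidueField A) (MrmFk M A), Q ∉ node →
      Q.ord (ttraRed1 M A hpM hA ⟨f, hf.1⟩) =
        ∑ P ∈ D.support.filter (fun P => P ∈ disc Q), D P

/-- **THE OUTPUT OF BLOCK `mrm`** (first component; the second is obtained by applying this to
`w V̄`, `w = ttrW`).  `V̄ ⊆ J₀(M p)[p]` a subgroup on which `T_ℓ = a_ℓ` for every `good` prime
`ℓ ∤ M p` (`good` an arbitrary predicate: the primes of good reduction of `W`), with ONE good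
`ℓ₀` such that `a_ℓ₀ ≢ ℓ₀ + 1 (mod p)`; (W1) holds on `V̄` (`mrr`), the
thickness is prime to `p` (`mrt`) and balanced (`mrs`), the disc formula holds (`mrn`).  Then for
every `x = [D] ∈ V̄`, `p D = div f`, the reduction `ψ = red₁ (c f)` of the normalisation of `f` is a
**Hecke-eigen Kummer function of `X₀(M)_k`**: all its orders are divisible by `p`, and
`T̄_ℓ ψ = const · ψ^{a} · h^p` with `a ≡ a_ℓ`.  (If `ψ` is not `const · (p-th power)` this is a
non-zero `T`-eigenclass in `Pic⁰(X₀(M)_k)[p]`: input of `mro`.) -/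
def MrmMainSpec : Prop :=
  5 ≤ p →
  ∀ (node : Set (Place (ResidueField A) (MrmFk M A)))
    (e : Place (ResidueField A) (MrmFk M A) → ℕ)
    (disc : Place (ResidueField A) (MrmFk M A) →
      Set (Place Qb ↥(modularFunctionFieldBar (M * p))))
    (good : ℕ → Prop),
    (∀ Q ∈ node, ¬ p ∣ e Q) →
    (∀ (ℓ : ℕ) [NeZero ℓ], ℓ.Prime → good ℓ → ¬ ℓ ∣ M * p →
      ∃ (hα : (mrmAlB (ResidueField A) M ℓ).toRingHom.IsIntegral)
        (hβ : (mrmBeB (ResidueField A) M ℓ).toRingHom.IsIntegral),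
        MrmBalance M A node e ℓ hα hβ) →
    MrmDisc M A hpM hA node disc →
    ∀ (Vbar : AddSubgroup (JZero (M * p))) (a : ℕ → ℤ),
      (∀ x ∈ Vbar, (p : ℤ) • x = 0) →
      (∀ (ℓ : ℕ) (hℓ : ℓ.Prime), good ℓ → ¬ ℓ ∣ M * p → ∀ x ∈ Vbar,
        heckeOperatorBar (M * p) ⟨ℓ, hℓ⟩ x = a ℓ • x) →
      (∃ ℓ₀ : ℕ, ℓ₀.Prime ∧ good ℓ₀ ∧ ¬ ℓ₀ ∣ M * p ∧ ¬ (p : ℤ) ∣ a ℓ₀ - ((ℓ₀ : ℤ) + 1)) →
      -- (W1), from `mrr`
      (∀ (D : Divisor.degZero (K := Qb) (F := ↥(modularFunctionFieldBar (M * p))))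
        (f : modularFunctionFieldBar (M * p)), Pic0.mk D ∈ Vbar → f ≠ 0 →
        (∀ P : Place Qb ↥(modularFunctionFieldBar (M * p)),
          (p : ℤ) * (D : Divisor Qb ↥(modularFunctionFieldBar (M * p))) P = P.ord f) →
        ∃ c : ℤ, ∀ Q ∈ node, (p : ℤ) ∣ (e Q : ℤ) * mrmSlope₁ M A hpM hA f Q - c) →
      ∀ (D : Divisor.degZero (K := Qb) (F := ↥(modularFunctionFieldBar (M * p))))
        (f : modularFunctionFieldBar (M * p)) (hf : TtalIsU (ttrV1 M A hpM hA) f),
        Pic0.mk D ∈ Vbar → f ≠ 0 →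
        (∀ P : Place Qb ↥(modularFunctionFieldBar (M * p)),
          (p : ℤ) * (D : Divisor Qb ↥(modularFunctionFieldBar (M * p))) P = P.ord f) →
        (∀ Q : Place (ResidueField A) (MrmFk M A),
          (p : ℤ) ∣ Q.ord (ttraRed1 M A hpM hA ⟨f, hf.1⟩)) ∧
        ∀ (ℓ : ℕ) [NeZero ℓ], ℓ.Prime → good ℓ → ¬ ℓ ∣ M * p →
          ∃ (h : MrmFk M A) (c : ResidueField A) (n : ℕ), h ≠ 0 ∧ c ≠ 0 ∧
            (p : ℤ) ∣ (n : ℤ) - a ℓ ∧
            mrmTbarFun (ResidueField A) M ℓ (ttraRed1 M A hpM hA ⟨f, hf.1⟩) =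
              algebraMap (ResidueField A) (MrmFk M A) c *
                ttraRed1 M A hpM hA ⟨f, hf.1⟩ ^ n * h ^ p

/-- **(M-w)** the Atkin-Lehner involution `w = ttrW` commutes with the Hecke operators on
functions (`ℓ ∤ M p`); so `w V̄` is Hecke-eigen with the same eigenvalues and the SECOND component
is reached by applying `MrmMainSpec` to `w V̄`, `w f` (`red₂ = red₁ ∘ w`). -/
def MrmWHeckeSpec : Prop :=
  ∀ (ℓ : ℕ) [NeZero ℓ], ℓ.Prime → ¬ ℓ ∣ M * p →
    ∀ f : modularFunctionFieldBar (M * p),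
      gHeckeFun (M * p) ℓ (ttrW M hpM f) = ttrW M hpM (gHeckeFun (M * p) ℓ f)

/-- **(M5) `ker sp = Γ₀`**: if BOTH reductions of (the normalisations of) the Kummer function `f`
of `D` (`p D = div f`) are a constant times a `p`-th power, then `[D]` lies in the Kummer subgroup
`Γ₀ = ttalKum (ttalOne V₁ V₂) p` of TT (which has no `I`-trivial subquotient: landed (β)). -/
def MrmKerSpec : Prop :=
  ∀ (D : Divisor.degZero (K := Qb) (F := ↥(modularFunctionFieldBar (M * p))))
    (f : modularFunctionFieldBar (M * p)) (c₁ c₂ : Qb)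
    (h₁ : TtalIsU (ttrV1 M A hpM hA) (algebraMap Qb _ c₁ * f))
    (h₂ : TtalIsU (ttraV2 M A hpM hA) (algebraMap Qb _ c₂ * f)),
    (∀ P : Place Qb ↥(modularFunctionFieldBar (M * p)),
      (p : ℤ) * (D : Divisor Qb ↥(modularFunctionFieldBar (M * p))) P = P.ord f) →
    (∃ (a : ResidueField A) (h : MrmFk M A),
      ttraRed1 M A hpM hA ⟨algebraMap Qb _ c₁ * f, h₁.1⟩ =
        algebraMap (ResidueField A) (MrmFk M A) a * h ^ p) →
    (∃ (a : ResidueField A) (h : MrmFk M A),
      ttraRed2 M A hpM hA ⟨algebraMap Qb _ c₂ * f, h₂.1⟩ =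
        algebraMap (ResidueField A) (MrmFk M A) a * h ^ p) →
    Pic0.mk D ∈ ttalKum (K := Qb) (ttalOne (ttrV1 M A hpM hA) (ttraV2 M A hpM hA)) p

end Concrete

end Fermat.Agent.MR
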