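import Mathlib
import Fermat.Agent.MR.M.Spec
import Fermat.Agent.MR.Sp.Ker
import Fermat.Agent.TT.Red2.Red2Inst
import Fermat.Agent.G.Desc.Kummer
import Fermat.Agent.S24.Degree

/-!
# PROGRAM MR (S44), block `mrm`: THE ASSEMBLY  `mrm_main`

Owner: helper26.  Namespace `Fermat.Agent.MR`, prefix `mrm`.

`mrm_main : MrmHeckeRedSpec M A hpM hA → MrmEisSpec M A → MrmMainSpec M A hpM hA`.
-/

set_option autoImplicit false
set_option linter.unusedSectionVars false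
set_option linter.unusedVariables false
set_option linter.style.haveILetI false

noncomputable section

namespace Fermat.Agent.MR

open AlgebraicCurve IsLocalRing ModularCurve Fermat.Agent.G Fermat.Agent.FF Fermat.Agent.TT
  Fermat.Agent.SS

local notation "Qb" => AlgebraicClosure ℚ

variable (M : ℕ) [NeZero M] {p : ℕ} [Fact p.Prime] [NeZero p]
variable (A : ValuationSubring Qb) (hpM : ¬ p ∣ M) (hA : A.LiesOverPrime p)

/-- the one-valuation package of helper1 at `(V₁, red₁)`. -/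
theorem mrm_one : MrpOne A (ttrV1 M A hpM hA) (ttraRed1 M A hpM hA) :=
  ⟨(ttra_idem M A hpM hA (ttra_h₁ M A hpM hA)).const₁,
    (ttra_idem M A hpM hA (ttra_h₁ M A hpM hA)).max₁,
    ttra_ker₁ M A hpM hA (ttra_h₁ M A hpM hA),
    ttra_sc₁ M A hpM hA (ttra_h₁ M A hpM hA),
    fun a => (ttra_h₁ M A hpM hA).red_const a⟩

section Abs

variable {K : Type*} [Field K] {A' : ValuationSubring K} {F : Type*} [Field F] [Algebra K F]
variable {F' : Type*} [Field F'] [Algebra (ResidueField A') F']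
variable {V : ValuationSubring F} {red : V →+* F'}

/-- the product of two units. -/
theorem mrm_isU_mul {x y : F} (hx : TtalIsU V x) (hy : TtalIsU V y) : TtalIsU V (x * y) :=
  ⟨V.mul_mem _ _ hx.1 hy.1, by rw [mul_inv]; exact V.mul_mem _ _ hx.2 hy.2⟩

/-- the inverse of a unit. -/
theorem mrm_isU_inv {x : F} (hx : TtalIsU V x) : TtalIsU V x⁻¹ :=
  ⟨hx.2, by rw [inv_inv]; exact hx.1⟩

/-- a natural power of a unit. -/
theorem mrm_isU_pow {x : F} (hx : TtalIsU V x) (n : ℕ) : TtalIsU V (x ^ n) :=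
  ⟨V.pow_mem hx.1 n, by rw [← inv_pow]; exact V.pow_mem hx.2 n⟩

/-- an integer power of a unit. -/
theorem mrm_isU_zpow {x : F} (hx : TtalIsU V x) (n : ℤ) : TtalIsU V (x ^ n) := by
  obtain ⟨m, rfl | rfl⟩ := n.eq_nat_or_neg
  · rw [zpow_natCast]; exact mrm_isU_pow hx m
  · rw [zpow_neg, zpow_natCast]; exact mrm_isU_inv (mrm_isU_pow hx m)

/-- the reduction of a unit constant is a non-zero constant. -/
theorem mrm_red_const (H : MrpOne A' V red) {c : K} (hc0 : c ≠ 0)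
    (hc : TtalIsU V (algebraMap K F c)) :
    ∃ a : ResidueField A', a ≠ 0 ∧ red ⟨algebraMap K F c, hc.1⟩ = algebraMap (ResidueField A') F' a := by
  obtain ⟨hcA, hcn⟩ := mrp_const_unit H hc0 hc
  refine ⟨residue A' ⟨c, hcA⟩, ?_, H.const ⟨c, hcA⟩⟩
  intro h0
  apply hcn
  rw [IsLocalRing.residue_eq_zero_iff] at h0
  exact (ValuationSubring.coe_mem_nonunits_iff (A := A') (a := ⟨c, hcA⟩)).2 h0

/-- any order of a normalisation of a unit is the order of its reduction. -/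
theorem mrm_ordAt_unit (H : MrpOne A' V red) {f : F} (hf0 : f ≠ 0) (hf : TtalIsU V f)
    (Q : Place (ResidueField A') F') {n : ℤ} (hn : MrmOrdAt K V red f Q n) :
    n = Q.ord (red ⟨f, hf.1⟩) := by
  obtain ⟨c, h, hc0, rfl⟩ := hn
  have hcU : TtalIsU V (algebraMap K F c) := by
    have e : algebraMap K F c = (algebraMap K F c * f) * f⁻¹ := by
      rw [mul_assoc, mul_inv_cancel₀ hf0, mul_one]
    rw [e]
    exact mrm_isU_mul h (mrm_isU_inv hf)
  obtain ⟨a, ha0, ha⟩ := mrm_red_const H hc0 hcU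
  have e : (⟨algebraMap K F c * f, h.1⟩ : V) = ⟨algebraMap K F c, hcU.1⟩ * ⟨f, hf.1⟩ :=
    Subtype.ext rfl
  have hr := mrp_red_ne_zero H hf0 hf
  rw [e, map_mul, ha, Place.ord_mul Q
    ((map_ne_zero_iff _ (algebraMap (ResidueField A') F').injective).2 ha0) hr,
    Fermat.Agent.S24.PlaceOrd.ord_algebraMap, zero_add]

/-- **the slope of a unit is the order of its reduction.** -/
theorem mrm_slope_unit (H : MrpOne A' V red) {f : F} (hf0 : f ≠ 0) (hf : TtalIsU V f)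
    (Q : Place (ResidueField A') F') :
    mrmSlope K V red f Q = Q.ord (red ⟨f, hf.1⟩) := by
  have hex : ∃ n : ℤ, MrmOrdAt K V red f Q n := by
    have e1 : algebraMap K F 1 * f = f := by rw [map_one, one_mul]
    have h1 : TtalIsU V (algebraMap K F 1 * f) := by rw [e1]; exact hf
    refine ⟨Q.ord (red ⟨f, hf.1⟩), 1, h1, one_ne_zero, ?_⟩
    have e2 : (⟨algebraMap K F 1 * f, h1.1⟩ : V) = ⟨f, hf.1⟩ := Subtype.ext e1
    rw [e2]
  unfold mrmSlope
  rw [dif_pos hex]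
  exact mrm_ordAt_unit H hf0 hf Q hex.choose_spec

end Abs

section Concrete

/-- **the Hecke step**: if `p D = div f`, `f` a unit of `V₁`, and `T_ℓ [D] = a [D]`, then
`T̄_ℓ (red₁ f) = c (red₁ f)^n h^p` with `n ≡ a (mod p)`. -/
theorem mrm_hecke_step (hH : MrmHeckeRedSpec M A hpM hA)
    (D : Divisor.degZero (K := Qb) (F := ↥(modularFunctionFieldBar (M * p))))
    (f : modularFunctionFieldBar (M * p)) (hf : TtalIsU (ttrV1 M A hpM hA) f) (hf0 : f ≠ 0)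
    (hD : ∀ P : Place Qb ↥(modularFunctionFieldBar (M * p)),
      (p : ℤ) * (D : Divisor Qb ↥(modularFunctionFieldBar (M * p))) P = P.ord f)
    (ℓ : ℕ) [NeZero ℓ] (hℓ : ℓ.Prime) (hℓN : ¬ ℓ ∣ M * p) (a : ℤ)
    (heig : heckeOperatorBar (M * p) ⟨ℓ, hℓ⟩ (Pic0.mk D) = a • Pic0.mk D) :
    ∃ (h : MrmFk M A) (c : ResidueField A) (n : ℕ), h ≠ 0 ∧ c ≠ 0 ∧ (p : ℤ) ∣ (n : ℤ) - a ∧
      mrmTbarFun (ResidueField A) M ℓ (ttraRed1 M A hpM hA ⟨f, hf.1⟩) =
        algebraMap (ResidueField A) (MrmFk M A) c *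
          ttraRed1 M A hpM hA ⟨f, hf.1⟩ ^ n * h ^ p := by
  classical
  have hp : p.Prime := Fact.out
  have hp0 : (p : ℤ) ≠ 0 := by exact_mod_cast hp.ne_zero
  obtain ⟨hgU, hgred⟩ := hH ℓ hℓ hℓN f hf
  obtain ⟨E, hTE, hg0, hE⟩ := gff_hecke_class (M * p) ℓ hℓ D p f hf0 hD
  have h1 : Pic0.mk (a • D) = Pic0.mk E := by
    rw [← hTE, heig]
    rfl
  obtain ⟨h₀, hh₀, hord⟩ := mrp_mk_eq_mk_iff.1 h1
  have hord' : ∀ v : Place Qb ↥(modularFunctionFieldBar (M * p)),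
      (E : Divisor Qb ↥(modularFunctionFieldBar (M * p))) v =
        a * (D : Divisor Qb ↥(modularFunctionFieldBar (M * p))) v + v.ord h₀ := by
    intro v
    have := hord v
    simp only [AddSubgroup.coe_zsmul, Finsupp.smul_apply, smul_eq_mul] at this
    linarith
  -- `a = p b + n`
  obtain ⟨n, hn⟩ := Int.eq_ofNat_of_zero_le (Int.emod_nonneg a hp0)
  set b : ℤ := a / p with hb
  have hab : a = p * b + n := by rw [← hn, hb]; exact (Int.mul_ediv_add_emod a p).symm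
  set g := gHeckeFun (M * p) ℓ f with hg
  set h₂ := f ^ b * h₀ with hh₂
  have hh₂0 : h₂ ≠ 0 := mul_ne_zero (zpow_ne_zero _ hf0) hh₀
  have hq0 : f ^ n * h₂ ^ p ≠ 0 := mul_ne_zero (pow_ne_zero _ hf0) (pow_ne_zero _ hh₂0)
  have hordg : ∀ v : Place Qb ↥(modularFunctionFieldBar (M * p)),
      v.ord g = v.ord (f ^ n * h₂ ^ p) := by
    intro v
    rw [← hE v, hord' v, Place.ord_mul v (pow_ne_zero _ hf0) (pow_ne_zero _ hh₂0),
      mrp_ord_pow, mrp_ord_pow, hh₂, Place.ord_mul v (zpow_ne_zero _ hf0) hh₀, Place.ord_zpow,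
      ← hD v]
    rw [hab]
    ring
  obtain ⟨c₀, hc₀⟩ := gdk_const_of_ord_eq_zero (Fermat.Agent.S24.isSepGen_jBar (M * p))
    (f := g * (f ^ n * h₂ ^ p)⁻¹) (fun v => by
      rw [Place.ord_mul v hg0 (inv_ne_zero hq0), Place.ord_inv, hordg v, add_neg_cancel])
  have hgeq : g = algebraMap Qb _ c₀ * (f ^ n * h₂ ^ p) := by
    rw [← hc₀, mul_assoc, inv_mul_cancel₀ hq0, mul_one]
  have hc₀0 : c₀ ≠ 0 := by
    rintro rfl
    rw [map_zero, zero_mul] at hgeq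
    exact hg0 hgeq
  have H := mrm_one M A hpM hA
  obtain ⟨c', hc'0, hh₃U⟩ := H.sc h₂ hh₂0
  set h₃ := algebraMap Qb (modularFunctionFieldBar (M * p)) c' * h₂ with hh₃
  have hc'F : algebraMap Qb (modularFunctionFieldBar (M * p)) c' ≠ 0 :=
    (map_ne_zero_iff _ (algebraMap Qb (modularFunctionFieldBar (M * p))).injective).2 hc'0
  have hh₃0 : h₃ ≠ 0 := mul_ne_zero hc'F hh₂0
  set C : Qb := c₀ / c' ^ p with hC
  have hC0 : C ≠ 0 := div_ne_zero hc₀0 (pow_ne_zero _ hc'0)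
  have hgeq' : g = algebraMap Qb _ C * f ^ n * h₃ ^ p := by
    have e : algebraMap Qb (modularFunctionFieldBar (M * p)) C *
        algebraMap Qb (modularFunctionFieldBar (M * p)) c' ^ p =
        algebraMap Qb (modularFunctionFieldBar (M * p)) c₀ := by
      rw [hC, ← map_pow, ← map_mul, div_mul_cancel₀ _ (pow_ne_zero _ hc'0)]
    rw [hgeq, hh₃, mul_pow, ← e]
    ring
  have hfn := mrm_isU_pow hf n
  have hh₃p := mrm_isU_pow hh₃U p
  have hCU : TtalIsU (ttrV1 M A hpM hA) (algebraMap Qb (modularFunctionFieldBar (M * p)) C) := by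
    have e : algebraMap Qb (modularFunctionFieldBar (M * p)) C = g * (f ^ n)⁻¹ * (h₃ ^ p)⁻¹ := by
      rw [eq_mul_inv_iff_mul_eq₀ (pow_ne_zero _ hh₃0), eq_mul_inv_iff_mul_eq₀ (pow_ne_zero _ hf0),
        hgeq']
      ring
    rw [e]
    exact mrm_isU_mul (mrm_isU_mul hgU (mrm_isU_inv hfn)) (mrm_isU_inv hh₃p)
  obtain ⟨c, hc0, hcred⟩ := mrm_red_const H hC0 hCU
  refine ⟨ttraRed1 M A hpM hA ⟨h₃, hh₃U.1⟩, c, n, mrp_red_ne_zero H hh₃0 hh₃U, hc0, ?_, ?_⟩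
  · rw [hab]
    exact ⟨-b, by ring⟩
  · rw [← hgred, ← hcred, ← map_pow, ← map_pow, ← map_mul, ← map_mul]
    congr 1
    exact Subtype.ext hgeq'

/-- **THE ASSEMBLY OF BLOCK `mrm`.** -/
theorem mrm_main (hH : MrmHeckeRedSpec M A hpM hA) (hE : MrmEisSpec M (p := p) A) :
    MrmMainSpec M A hpM hA := by
  intro hp5 node e disc good hthick hbal hdisc Vbar a htors heig hne hW1 D f hf hDV hf0 hD
  classical
  have hp : p.Prime := Fact.out
  have H := mrm_one M A hpM hA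
  have key : ∀ (ℓ : ℕ) [NeZero ℓ], ℓ.Prime → good ℓ → ¬ ℓ ∣ M * p →
      ∃ (h : MrmFk M A) (c : ResidueField A) (n : ℕ), h ≠ 0 ∧ c ≠ 0 ∧
        (p : ℤ) ∣ (n : ℤ) - a ℓ ∧
        mrmTbarFun (ResidueField A) M ℓ (ttraRed1 M A hpM hA ⟨f, hf.1⟩) =
          algebraMap (ResidueField A) (MrmFk M A) c *
            ttraRed1 M A hpM hA ⟨f, hf.1⟩ ^ n * h ^ p := by
    intro ℓ _ hℓ hgood hℓN
    exact mrm_hecke_step M A hpM hA hH D f hf hf0 hD ℓ hℓ hℓN (a ℓ)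
      (heig ℓ hℓ hgood hℓN _ hDV)
  refine ⟨fun Q => ?_, key⟩
  set ψ := ttraRed1 M A hpM hA ⟨f, hf.1⟩ with hψ
  have hψ0 : ψ ≠ 0 := mrp_red_ne_zero H hf0 hf
  by_cases hQ : Q ∈ node
  · obtain ⟨ℓ₀, hℓ₀, hg₀, hℓ₀N, hnE⟩ := hne
    haveI : NeZero ℓ₀ := ⟨hℓ₀.ne_zero⟩
    obtain ⟨hα, hβ, hB⟩ := hbal ℓ₀ hℓ₀ hg₀ hℓ₀N
    obtain ⟨c, hc⟩ := hW1 D f hDV hf0 hD
    have hc' : ∀ Q' ∈ node, (p : ℤ) ∣ (e Q' : ℤ) * Q'.ord ψ - c := by
      intro Q' hQ'
      have := hc Q' hQ'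
      rwa [show mrmSlope₁ M A hpM hA f Q' = Q'.ord ψ from mrm_slope_unit H hf0 hf Q'] at this
    have hEis := hE node e ℓ₀ hℓ₀ hℓ₀N hα hβ hB hthick ψ c hψ0 hc' Q hQ
    obtain ⟨h, c₁, n, hh0, hc₁0, hna, hT⟩ := key ℓ₀ hℓ₀ hg₀ hℓ₀N
    have hc₁F : algebraMap (ResidueField A) (MrmFk M A) c₁ ≠ 0 :=
      (map_ne_zero_iff _ (algebraMap (ResidueField A) (MrmFk M A)).injective).2 hc₁0
    rw [hT, Place.ord_mul Q (mul_ne_zero hc₁F (pow_ne_zero _ hψ0)) (pow_ne_zero _ hh0),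
      Place.ord_mul Q hc₁F (pow_ne_zero _ hψ0), Fermat.Agent.S24.PlaceOrd.ord_algebraMap,
      mrp_ord_pow, mrp_ord_pow] at hEis
    have h2 : (p : ℤ) ∣ (a ℓ₀ - ((ℓ₀ : ℤ) + 1)) * Q.ord ψ := by
      obtain ⟨t, ht⟩ := hEis
      obtain ⟨s, hs⟩ := hna
      refine ⟨t - Q.ord h - s * Q.ord ψ, ?_⟩
      have hn : (n : ℤ) = a ℓ₀ + p * s := by linarith
      rw [hn] at ht
      linear_combination ht
    exact ((Nat.prime_iff_prime_int.mp hp).dvd_or_dvd h2).resolve_left hnE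
  · have h3 := hdisc f hf ((p : ℤ) • (D : Divisor Qb ↥(modularFunctionFieldBar (M * p))))
      (fun P => by rw [Finsupp.smul_apply, smul_eq_mul, hD P]) Q hQ
    rw [h3]
    apply Finset.dvd_sum
    intro P _
    rw [Finsupp.smul_apply, smul_eq_mul]
    exact dvd_mul_right _ _

end Concrete

end Fermat.Agent.MR
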