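import Mathlib
import Fermat.Agent.MR.M.Main
import Fermat.Agent.MR.J.Spec

/-!
# PROGRAM MR (S44), block `mrm`: THE COMPONENT STATEMENTS  (`MrjCompSpec₁` of `MR/J/Spec.lean`)

Owner: helper26.  Namespace `Fermat.Agent.MR`, prefix `mrm`.

* `MrmLeafSpec M 𝔸 hpM h𝔸` : THE PACKAGE OF LEAF OUTPUTS consumed by the first component
  (one existential over `node`, `e`, `disc`): thickness prime to `p` (`mrt`), Balance (`mrs`/`mrm`),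
  the disc formula (`mrn`/`mrs`), and (W1) (`mrr`) for every `I`-stable `V ⊆ J₀(M p)[p]` with
  `MraShape` and `MraP1`;
* `mrm_comp₁ : MrmMainSpec → MrmLeafSpec → MrjCompSpec₁`.
-/

set_option autoImplicit false
set_option linter.unusedSectionVars false
set_option linter.unusedVariables false
set_option linter.style.haveILetI false

noncomputable section

namespace Fermat.Agent.MR

open AlgebraicCurve IsLocalRing ModularCurve Fermat.Agent.G Fermat.Agent.FF Fermat.Agent.TT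
  Fermat.Agent.SS

variable (M : ℕ) [NeZero M] {p : ℕ} [Fact p.Prime] [NeZero p]
variable (𝔸 : ValuationSubring FfQb) (hpM : ¬ p ∣ M) (h𝔸 : 𝔸.LiesOverPrime p)

/-- **THE LEAF PACKAGE of the first component**: `node`, `e`, `disc` with (THICK), (BALANCE),
(DISC) and (W1). -/
def MrmLeafSpec : Prop :=
  ∃ (node : Set (Place (ResidueField 𝔸) (MrmFk M 𝔸)))
    (e : Place (ResidueField 𝔸) (MrmFk M 𝔸) → ℕ)
    (disc : Place (ResidueField 𝔸) (MrmFk M 𝔸) →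
      Set (Place FfQb ↥(modularFunctionFieldBar (M * p)))),
    (∀ Q ∈ node, ¬ p ∣ e Q) ∧
    (∀ (ℓ : ℕ) [NeZero ℓ], ℓ.Prime → ¬ ℓ ∣ M * p →
      ∃ (hα : (mrmAlB (ResidueField 𝔸) M ℓ).toRingHom.IsIntegral)
        (hβ : (mrmBeB (ResidueField 𝔸) M ℓ).toRingHom.IsIntegral),
        MrmBalance M 𝔸 node e ℓ hα hβ) ∧
    MrmDisc M 𝔸 hpM h𝔸 node disc ∧
    ∀ V : AddSubgroup (JZero (M * p)), (∀ x ∈ V, p • x = 0) →
      (∀ σ ∈ ffI 𝔸, ∀ x ∈ V, σ • x ∈ V) → MraShape p 𝔸 V → MraP1 p 𝔸 (mraH 𝔸 V) →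
      ∀ (D : Divisor.degZero (K := FfQb) (F := ↥(modularFunctionFieldBar (M * p))))
        (f : modularFunctionFieldBar (M * p)), Pic0.mk D ∈ V → f ≠ 0 →
        (∀ P : Place FfQb ↥(modularFunctionFieldBar (M * p)),
          (p : ℤ) * (D : Divisor FfQb ↥(modularFunctionFieldBar (M * p))) P = P.ord f) →
        ∃ c : ℤ, ∀ Q ∈ node, (p : ℤ) ∣ (e Q : ℤ) * mrmSlope₁ M 𝔸 hpM h𝔸 f Q - c

/-- `T̄_ℓ` of `MR/Spec.lean` is `mrmTbarFun`. -/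
theorem mrm_mraTbar_eq (k : Type) [Field k] (ℓ : ℕ) [NeZero ℓ]
    (ψ : modularFunctionFieldFullC k M) : mraTbar k M ℓ ψ = mrmTbarFun k M ℓ ψ := rfl

/-- **(COMP₁)**. -/
theorem mrm_comp₁ (hmain : MrmMainSpec M 𝔸 hpM h𝔸) (hleaf : MrmLeafSpec M 𝔸 hpM h𝔸) :
    MrjCompSpec₁ M 𝔸 hpM h𝔸 := by
  intro hp5 hsq good a V hgood hV hne D f hf hf0 hDV hD
  classical
  obtain ⟨node, e, disc, hthick, hbal, hdisc, hW1⟩ := hleaf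
  obtain ⟨ℓ₀, hg₀, hne₀⟩ := hne
  -- the predicates on `ℕ`
  let good' : ℕ → Prop := fun ℓ => ∃ h : ℓ.Prime, good ⟨ℓ, h⟩
  let a' : ℕ → ℤ := fun ℓ => if h : ℓ.Prime then a ⟨ℓ, h⟩ else 0
  have ha' : ∀ ℓ : Nat.Primes, a' ℓ = a ℓ := fun ℓ => by
    show (if h : (ℓ : ℕ).Prime then a ⟨ℓ, h⟩ else 0) = a ℓ
    rw [dif_pos ℓ.2]
    rfl
  have htors : ∀ x ∈ V, (p : ℤ) • x = 0 := fun x hx => by
    rw [natCast_zsmul]; exact hV.tors x hx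
  obtain ⟨hord, hT⟩ := hmain hp5 node e disc good' hthick
    (fun ℓ _ hℓ _ hℓN => hbal ℓ hℓ hℓN) hdisc V a' htors
    (fun ℓ hℓ ⟨_, hg⟩ _ x hx => by rw [ha' ⟨ℓ, hℓ⟩]; exact hV.eigen ⟨ℓ, hℓ⟩ hg x hx)
    ⟨ℓ₀, ℓ₀.2, ⟨ℓ₀.2, hg₀⟩, hgood ℓ₀ hg₀, by rw [ha' ℓ₀]; exact_mod_cast hne₀⟩
    (hW1 V hV.tors hV.stable hV.shape hV.p1) D f hf hDV hf0 hD
  refine ⟨hord, fun ℓ hℓg => ?_⟩
  haveI : NeZero (ℓ : ℕ) := ⟨ℓ.2.ne_zero⟩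
  obtain ⟨h, c, n, hh0, hc0, hn, hTℓ⟩ := hT ℓ ℓ.2 ⟨ℓ.2, hℓg⟩ (hgood ℓ hℓg)
  set ψ := ttraRed1 M 𝔸 hpM h𝔸 ⟨f, hf.1⟩ with hψ
  have hψ0 : ψ ≠ 0 := mrp_red_ne_zero (mrm_one M 𝔸 hpM h𝔸) hf0 hf
  obtain ⟨s, hs⟩ := hn
  rw [ha' ℓ] at hs
  refine ⟨c, ψ ^ s * h, ?_⟩
  rw [mrm_mraTbar_eq, hTℓ, mul_pow, ← zpow_natCast (ψ ^ s) p, ← zpow_mul, ← zpow_natCast ψ n,
    mul_assoc, mul_assoc, ← mul_assoc (ψ ^ (a ℓ)), ← zpow_add₀ hψ0]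
  congr 3
  linarith

end Fermat.Agent.MR
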