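import Mathlib
import Fermat.Agent.MR.M.Comp
import Fermat.Agent.MR.Node.Spec

/-!
# PROGRAM MR (S44), block `mrm`: THE COMMON `node / e / disc` AND THE FOUR LEAF TARGETS

Owner: helper26.  Namespace `Fermat.Agent.MR`, prefix `mrm`.

`MrmLeafSpec` (`MR/M/Comp.lean`) is ONE existential over `node`, `e`, `disc`; the four leaf owners
must meet at the SAME triple.  This file fixes it, in the landed TT vocabulary and helper19's
`MrnCoord` (`MR/Node/Spec.lean`), for an atlas `hat : GrdAtlas M A τ τ'`: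

* `mrmNode … hat := Set.range ν₁` (the first branches of the canonical nodes `ttrkS`);
* `mrmDisc … hat Q := {R | ttrglCen₁ … hat Q R}` (the places centred at `Q`);
* `MrmIsThick … hat E` : `E : Place → ℕ` is A THICKNESS FUNCTION: at every node `i` there are node
  coordinates `u w = κ ε` (`MrnCoord`) with `|κ| = |p| ^ E (ν₁ i)`.  Every leaf is stated for ALL
  thickness functions, so nobody has to choose one;
* the four targets `MrmThickLeaf` (`mrt`/AUX), `MrmBalanceLeaf` (`mrs`/`mrm`), `MrmDiscLeaf`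
  (`mrn`/`mrf`/`mrs`), `MrmW1Leaf` (`mrr`), and `mrm_leaf` : they give `MrmLeafSpec`.
-/

set_option autoImplicit false
set_option linter.unusedSectionVars false
set_option linter.unusedVariables false
set_option linter.style.haveILetI false

noncomputable section

namespace Fermat.Agent.MR

open AlgebraicCurve IsLocalRing ModularCurve Fermat.Agent.G Fermat.Agent.FF Fermat.Agent.TT
  Fermat.Agent.SS

local notation "Qb" => AlgebraicClosure ℚ

variable (M : ℕ) [NeZero M] {p : ℕ} [Fact p.Prime] [NeZero p]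
variable (A : ValuationSubring Qb) (hpM : ¬ p ∣ M) (hA : A.LiesOverPrime p)
variable {τ τ' : LaurentSeries ℤ} (hat : GrdAtlas M A τ τ')

/-- the nodes of the first component: the first branches of the canonical nodes. -/
def mrmNode : Set (Place (ResidueField A) (MrmFk M A)) :=
  Set.range (ttrkSν₁ M p A hpM hA hat)

/-- the residue disc of a closed point of the first component. -/
def mrmDisc (Q : Place (ResidueField A) (MrmFk M A)) :
    Set (Place Qb ↥(modularFunctionFieldBar (M * p))) :=
  {R | ttrglCen₁ M A hpM hA hat Q R}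

/-- **`E` is a thickness function**: at every node there are (exact) node coordinates
`u w = κ ε` with `|κ| = |p| ^ E (ν₁ i)`. -/
def MrmIsThick (E : Place (ResidueField A) (MrmFk M A) → ℕ) : Prop :=
  ∀ i : ttrkS M p A hpM hA hat,
    ∃ (u w ε : ↥(modularFunctionFieldBar (M * p))) (κ : Qb),
      MrnCoord M A hpM hA hat i u w ε κ ∧
      A.valuation κ = A.valuation (p : Qb) ^ E (ttrkSν₁ M p A hpM hA hat i)

/-- **(THICK)**: the thickness is prime to `p`. -/
def MrmThickLeaf : Prop :=
  ∀ E : Place (ResidueField A) (MrmFk M A) → ℕ, MrmIsThick M A hpM hA hat E →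
    ∀ Q ∈ mrmNode M A hpM hA hat, ¬ p ∣ E Q

/-- **(BALANCE)** for every prime `ℓ ∤ M p`. -/
def MrmBalanceLeaf : Prop :=
  ∀ E : Place (ResidueField A) (MrmFk M A) → ℕ, MrmIsThick M A hpM hA hat E →
    ∀ (ℓ : ℕ) [NeZero ℓ], ℓ.Prime → ¬ ℓ ∣ M * p →
      ∃ (hα : (mrmAlB (ResidueField A) M ℓ).toRingHom.IsIntegral)
        (hβ : (mrmBeB (ResidueField A) M ℓ).toRingHom.IsIntegral),
        MrmBalance M A (mrmNode M A hpM hA hat) E ℓ hα hβ

/-- **(DISC)** at every non-node closed point of the first component. -/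
def MrmDiscLeaf : Prop :=
  MrmDisc M A hpM hA (mrmNode M A hpM hA hat) (mrmDisc M A hpM hA hat)

/-- **(W1)** for every `I`-stable subgroup of `J₀(M p)[p]` with `MraShape` and `MraP1`. -/
def MrmW1Leaf : Prop :=
  ∀ E : Place (ResidueField A) (MrmFk M A) → ℕ, MrmIsThick M A hpM hA hat E →
    ∀ V : AddSubgroup (JZero (M * p)), (∀ x ∈ V, p • x = 0) →
      (∀ σ ∈ ffI A, ∀ x ∈ V, σ • x ∈ V) → MraShape p A V → MraP1 p A (mraH A V) →
      ∀ (D : Divisor.degZero (K := Qb) (F := ↥(modularFunctionFieldBar (M * p))))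
        (f : modularFunctionFieldBar (M * p)), Pic0.mk D ∈ V → f ≠ 0 →
        (∀ P : Place Qb ↥(modularFunctionFieldBar (M * p)),
          (p : ℤ) * (D : Divisor Qb ↥(modularFunctionFieldBar (M * p))) P = P.ord f) →
        ∃ c : ℤ, ∀ Q ∈ mrmNode M A hpM hA hat,
          (p : ℤ) ∣ (E Q : ℤ) * mrmSlope₁ M A hpM hA f Q - c

/-- **the leaf package from the four targets** and the existence of ONE thickness function. -/
theorem mrm_leaf (hE : ∃ E, MrmIsThick M A hpM hA hat E)
    (h1 : MrmThickLeaf M A hpM hA hat) (h2 : MrmBalanceLeaf M A hpM hA hat)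
    (h3 : MrmDiscLeaf M A hpM hA hat) (h4 : MrmW1Leaf M A hpM hA hat) :
    MrmLeafSpec M A hpM hA := by
  obtain ⟨E, hE⟩ := hE
  exact ⟨mrmNode M A hpM hA hat, E, mrmDisc M A hpM hA hat, h1 E hE,
    fun ℓ _ hℓ hℓN => h2 E hE ℓ hℓ hℓN, h3, h4 E hE⟩

end Fermat.Agent.MR
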