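import Mathlib
import Fermat.Agent.MR.M.Spec
import Fermat.Agent.MR.Hecke.LevelP

/-!
# PROGRAM MR (S44), block `mrm`: THE LEVEL CAST `M p ℓ = M ℓ p` (PM ruling R70(3))

Owner: helper26.  Namespace `Fermat.Agent.MR`, prefix `mrmc`.

The model of Program TT at the upper level lives on the TYPE `F((M ℓ) p)`
(`ttrV1 (M * ℓ)`, `ttraV2 (M * ℓ)`, `ttrkS (M * ℓ) p …`), while the degeneracy maps
`heckeAlphaBar Qb (M * p) ℓ`, `heckeBetaBar Qb (M * p) ℓ` and the upstairs objects of block `mrh`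
(`grdO (M * p * ℓ) 𝔸`, `mrhRed1P`) live on `F((M p) ℓ)`; `M * ℓ * p = M * p * ℓ` is not a
definitional equality.

* `mrmcCast h : F(N₁) ≃ₐ[ℚ̄] F(N₂)` for `h : N₁ = N₂` (the identity on Laurent series), with the
  transport of `grdO`, `grdRed`;
* `mrmcAl`, `mrmcBe : F(M p) →ₐ[ℚ̄] F((M ℓ) p)` : the two degeneracy maps with values in the TYPE
  of the upper TT model (`= cast ∘ heckeAlphaBar / heckeBetaBar`);
* `mrmc_al_V1`, `mrmc_be_V1` : index 1 : `φ (V₁) ⊆ V₁'` and `red₁' ∘ φ = φ_k ∘ red₁`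
  (`φ_k = mrmAlB, mrmBeB`);
* `mrmc_w_al`, `mrmc_w_be` : the Atkin-Lehner involutions of the two levels commute with `φ`;
* `mrmc_al_V2`, `mrmc_be_V2` : index 2.
-/

set_option autoImplicit false
set_option linter.unusedSectionVars false
set_option linter.unusedVariables false
set_option linter.style.haveILetI false
set_option synthInstance.maxHeartbeats 400000

noncomputable section

namespace Fermat.Agent.MR

open ModularCurve AlgebraicCurve IsLocalRing Fermat.Agent.S18 Fermat.Agent.S24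
  Fermat.Agent.G Fermat.Agent.SS Fermat.Agent.TT

local notation "Qb" => AlgebraicClosure ℚ

/-! ## The generic cast -/

section Cast

variable {N₁ N₂ : ℕ}

theorem mrmc_bar_le (h : N₁ = N₂) : modularFunctionFieldBar N₁ ≤ modularFunctionFieldBar N₂ :=
  le_of_eq (congrArg modularFunctionFieldBar h)

/-- `F(N₁) ≃ₐ[ℚ̄] F(N₂)` for `N₁ = N₂` : the identity on Laurent series. -/
def mrmcCast (h : N₁ = N₂) : modularFunctionFieldBar N₁ ≃ₐ[Qb] modularFunctionFieldBar N₂ where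
  toFun x := ⟨(x : LaurentSeries Qb), mrmc_bar_le h x.2⟩
  invFun x := ⟨(x : LaurentSeries Qb), mrmc_bar_le h.symm x.2⟩
  left_inv _ := Subtype.ext rfl
  right_inv _ := Subtype.ext rfl
  map_mul' _ _ := Subtype.ext rfl
  map_add' _ _ := Subtype.ext rfl
  commutes' _ := Subtype.ext rfl

theorem mrmcCast_mk (h : N₁ = N₂) (s : LaurentSeries Qb) (hs : s ∈ modularFunctionFieldBar N₁) :
    ((mrmcCast h ⟨s, hs⟩ : modularFunctionFieldBar N₂) : LaurentSeries Qb) = s := rfl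

theorem mrmcCast_coe (h : N₁ = N₂) (x : modularFunctionFieldBar N₁) :
    ((mrmcCast h x : modularFunctionFieldBar N₂) : LaurentSeries Qb) = x := by
  obtain ⟨s, hs⟩ := x
  exact mrmcCast_mk h s hs

theorem mrmcCast_symm_mk (h : N₁ = N₂) (s : LaurentSeries Qb)
    (hs : s ∈ modularFunctionFieldBar N₂) :
    (((mrmcCast h).symm ⟨s, hs⟩ : modularFunctionFieldBar N₁) : LaurentSeries Qb) = s := rfl

theorem mrmcCast_symm_coe (h : N₁ = N₂) (x : modularFunctionFieldBar N₂) :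
    (((mrmcCast h).symm x : modularFunctionFieldBar N₁) : LaurentSeries Qb) = x := by
  obtain ⟨s, hs⟩ := x
  exact mrmcCast_symm_mk h s hs

theorem mrmcCast_rfl (N : ℕ) (x : modularFunctionFieldBar N) :
    mrmcCast (rfl : N = N) x = x := Subtype.ext (mrmcCast_coe rfl x)

variable [NeZero N₁] [NeZero N₂] (A : ValuationSubring Qb)

/-- the Gauss ring is transported by the cast. -/
theorem mrmc_mem_grdO (h : N₁ = N₂) (x : modularFunctionFieldBar N₁) :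
    mrmcCast h x ∈ grdO N₂ A ↔ x ∈ grdO N₁ A := by
  subst h
  rw [mrmcCast_rfl]

/-- the reduction is transported by the cast. -/
theorem mrmc_grdRed_coe (h : N₁ = N₂) (x : modularFunctionFieldBar N₁)
    (hx : x ∈ grdO N₁ A) (hx' : mrmcCast h x ∈ grdO N₂ A) :
    ((grdRed N₂ A ⟨mrmcCast h x, hx'⟩ : modularFunctionFieldFullC (ResidueField A) N₂) :
      LaurentSeries (ResidueField A)) =
    ((grdRed N₁ A ⟨x, hx⟩ : modularFunctionFieldFullC (ResidueField A) N₁) :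
      LaurentSeries (ResidueField A)) := by
  subst h
  congr 3

end Cast

/-! ## Ring homomorphisms out of `F(M p)` are determined on `α F(M) ∪ β F(M)` -/

section HomExt

variable (M : ℕ) [NeZero M] {p : ℕ} [Fact p.Prime] [NeZero p]

/-- two ring homomorphisms out of `F_ℚ̄(M p)` agreeing on `α_p F(M)` and `β_p F(M)` are equal. -/
theorem mrmc_hom_ext {S : Type*} [DivisionRing S]
    (f g : modularFunctionFieldBar (M * p) →+* S)
    (hα : ∀ y : modularFunctionFieldBar M,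
      f (heckeAlphaBar Qb M p y) = g (heckeAlphaBar Qb M p y))
    (hβ : ∀ y : modularFunctionFieldBar M,
      f (heckeBetaBar Qb M p y) = g (heckeBetaBar Qb M p y)) : f = g := by
  have h : f.comp (ssvmmUp (⊤ : IntermediateField ℚ Qb) (M * p)) =
      g.comp (ssvmmUp (⊤ : IntermediateField ℚ Qb) (M * p)) := by
    apply ssvma_hom_ext (↥(⊤ : IntermediateField ℚ Qb)) M
    · intro x
      rw [RingHom.comp_apply, RingHom.comp_apply, ssvmf_up_incl, hα]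
    · intro x
      rw [RingHom.comp_apply, RingHom.comp_apply, ssvmf_up_phi, hβ]
  apply RingHom.ext
  intro x
  obtain ⟨z, rfl⟩ := ttr_up_top_surjective (M * p) x
  exact RingHom.congr_fun h z

end HomExt

/-! ## Two abstract lemmas -/

section Abs

theorem mrmc_qExpand_congr {R : Type*} [CommRing R] {a b : ℕ} [NeZero a] [NeZero b] (h : a = b)
    (f : LaurentSeries R) : qExpand R a f = qExpand R b f := by
  subst h
  rfl

theorem mrmc_qExpand_comm {R : Type*} [CommRing R] (a b : ℕ) [NeZero a] [NeZero b]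
    (f : LaurentSeries R) : qExpand R a (qExpand R b f) = qExpand R b (qExpand R a f) := by
  rw [qExpand_qExpand, qExpand_qExpand]
  exact mrmc_qExpand_congr (mul_comm a b) f

variable {F F' Fk Fk' : Type*} [Field F] [Field F'] [Semiring Fk] [Semiring Fk']

/-- index 2 from index 1 and the commutation of the involutions. -/
theorem mrmc_V2_abs (V₁ : ValuationSubring F) (V₁' : ValuationSubring F') (w : F ≃+* F)
    (w' : F' ≃+* F') (red₁ : ↥V₁.toSubring →+* Fk) (red₁' : ↥V₁'.toSubring →+* Fk')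
    (φ : F → F') (φk : Fk → Fk')
    (h₁ : ∀ (x : F) (hx : x ∈ V₁), ∃ h : φ x ∈ V₁', red₁' ⟨φ x, h⟩ = φk (red₁ ⟨x, hx⟩))
    (hw : ∀ x : F, w' (φ x) = φ (w x)) (x : F) (hx : x ∈ ttalV2 V₁ w) :
    ∃ h : φ x ∈ ttalV2 V₁' w', ttalRed2 V₁' w' red₁' ⟨φ x, h⟩ = φk (ttalRed2 V₁ w red₁ ⟨x, hx⟩) := by
  obtain ⟨h, e⟩ := h₁ (w x) (ttal_mem_V2.1 hx)
  have h' : φ x ∈ ttalV2 V₁' w' := by
    rw [ttal_mem_V2, hw]
    exact h
  refine ⟨h', ?_⟩
  rw [ttalRed2_apply, ttalRed2_apply, ← e]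
  congr 1
  exact Subtype.ext (hw x)

end Abs

/-! ## The two degeneracy maps with values in the type of the upper TT model -/

section Level

variable (M : ℕ) [NeZero M] (p ℓ : ℕ) [Fact p.Prime] [NeZero p] [NeZero ℓ]
variable (A : ValuationSubring Qb)

theorem mrmc_level_eq : M * p * ℓ = M * ℓ * p := Nat.mul_right_comm M p ℓ

/-- `α_ℓ : F(M p) → F((M ℓ) p)`. -/
def mrmcAl : modularFunctionFieldBar (M * p) →ₐ[Qb] modularFunctionFieldBar (M * ℓ * p) :=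
  ((mrmcCast (mrmc_level_eq M p ℓ)) : modularFunctionFieldBar (M * p * ℓ) →ₐ[Qb]
    modularFunctionFieldBar (M * ℓ * p)).comp (heckeAlphaBar Qb (M * p) ℓ)

/-- `β_ℓ : F(M p) → F((M ℓ) p)`. -/
def mrmcBe : modularFunctionFieldBar (M * p) →ₐ[Qb] modularFunctionFieldBar (M * ℓ * p) :=
  ((mrmcCast (mrmc_level_eq M p ℓ)) : modularFunctionFieldBar (M * p * ℓ) →ₐ[Qb]
    modularFunctionFieldBar (M * ℓ * p)).comp (heckeBetaBar Qb (M * p) ℓ)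

theorem mrmcAl_apply (x : modularFunctionFieldBar (M * p)) :
    mrmcAl M p ℓ x = mrmcCast (mrmc_level_eq M p ℓ) (heckeAlphaBar Qb (M * p) ℓ x) := rfl

theorem mrmcBe_apply (x : modularFunctionFieldBar (M * p)) :
    mrmcBe M p ℓ x = mrmcCast (mrmc_level_eq M p ℓ) (heckeBetaBar Qb (M * p) ℓ x) := rfl

theorem mrmcAl_coe (x : modularFunctionFieldBar (M * p)) :
    ((mrmcAl M p ℓ x : modularFunctionFieldBar (M * ℓ * p)) : LaurentSeries Qb) = x := by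
  rw [mrmcAl_apply, mrmcCast_coe, coe_heckeAlphaBar]

theorem mrmcBe_coe (x : modularFunctionFieldBar (M * p)) :
    ((mrmcBe M p ℓ x : modularFunctionFieldBar (M * ℓ * p)) : LaurentSeries Qb) =
      qExpand Qb ℓ (x : LaurentSeries Qb) := by
  rw [mrmcBe_apply, mrmcCast_coe]
  rfl

/-! ### Index 1 -/

/-- the cast and the first valuation ring upstairs. -/
theorem mrmc_mem_V1 (hpMℓ : ¬ p ∣ M * ℓ) (hA : A.LiesOverPrime p)
    (y : modularFunctionFieldBar (M * p * ℓ)) :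
    mrmcCast (mrmc_level_eq M p ℓ) y ∈ ttrV1 (M * ℓ) A hpMℓ hA ↔ y ∈ grdO (M * p * ℓ) A := by
  rw [mem_ttrV1]
  exact mrmc_mem_grdO A (mrmc_level_eq M p ℓ) y

/-- the cast and the first reduction upstairs. -/
theorem mrmc_red1 (hpMℓ : ¬ p ∣ M * ℓ) (hA : A.LiesOverPrime p)
    (y : modularFunctionFieldBar (M * p * ℓ)) (hy : y ∈ grdO (M * p * ℓ) A)
    (hy' : mrmcCast (mrmc_level_eq M p ℓ) y ∈ ttrV1 (M * ℓ) A hpMℓ hA) :
    ttraRed1 (M * ℓ) A hpMℓ hA ⟨mrmcCast (mrmc_level_eq M p ℓ) y, hy'⟩ =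
      mrhRed1P M p ℓ A hA ⟨y, hy⟩ := by
  apply Subtype.ext
  rw [mrhRed1P_coe]
  show ((ttrRed1 (M * ℓ) A hA ⟨mrmcCast (mrmc_level_eq M p ℓ) y, hy'⟩ :
    ↥(modularFunctionFieldFullC (ResidueField A) (M * ℓ))) : LaurentSeries (ResidueField A)) = _
  rw [ttrRed1_coe]
  exact mrmc_grdRed_coe A (mrmc_level_eq M p ℓ) y hy hy'

/-- **(α), index 1** : `α_ℓ V₁ ⊆ V₁'` and `red₁' ∘ α_ℓ = ᾱ ∘ red₁`. -/
theorem mrmc_al_V1 (hpM : ¬ p ∣ M) (hpMℓ : ¬ p ∣ M * ℓ) (hA : A.LiesOverPrime p)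
    (x : modularFunctionFieldBar (M * p)) (hx : x ∈ ttrV1 M A hpM hA) :
    ∃ h : mrmcAl M p ℓ x ∈ ttrV1 (M * ℓ) A hpMℓ hA,
      ttraRed1 (M * ℓ) A hpMℓ hA ⟨mrmcAl M p ℓ x, h⟩ =
        mrmAlB (ResidueField A) M ℓ (ttraRed1 M A hpM hA ⟨x, hx⟩) := by
  obtain ⟨h, e⟩ := mrh_levelP_alpha₁ M p ℓ A hA x hx
  have h' : mrmcAl M p ℓ x ∈ ttrV1 (M * ℓ) A hpMℓ hA := (mrmc_mem_V1 M p ℓ A hpMℓ hA _).2 h
  refine ⟨h', ?_⟩
  show _ = ssvmdIncl (ResidueField A) M ℓ (ttrRed1 M A hA ⟨x, hx⟩)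
  rw [← e]
  exact mrmc_red1 M p ℓ A hpMℓ hA _ h h'

/-- **(β), index 1** : `β_ℓ V₁ ⊆ V₁'` and `red₁' ∘ β_ℓ = β̄ ∘ red₁`. -/
theorem mrmc_be_V1 (hpM : ¬ p ∣ M) (hpMℓ : ¬ p ∣ M * ℓ) (hA : A.LiesOverPrime p)
    (x : modularFunctionFieldBar (M * p)) (hx : x ∈ ttrV1 M A hpM hA) :
    ∃ h : mrmcBe M p ℓ x ∈ ttrV1 (M * ℓ) A hpMℓ hA,
      ttraRed1 (M * ℓ) A hpMℓ hA ⟨mrmcBe M p ℓ x, h⟩ =
        mrmBeB (ResidueField A) M ℓ (ttraRed1 M A hpM hA ⟨x, hx⟩) := by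
  obtain ⟨h, e⟩ := mrh_levelP_beta₁ M p ℓ A hA x hx
  have h' : mrmcBe M p ℓ x ∈ ttrV1 (M * ℓ) A hpMℓ hA := (mrmc_mem_V1 M p ℓ A hpMℓ hA _).2 h
  refine ⟨h', ?_⟩
  show _ = ssvmfPhi (ResidueField A) M ℓ (ttrRed1 M A hA ⟨x, hx⟩)
  rw [← e]
  exact mrmc_red1 M p ℓ A hpMℓ hA _ h h'

/-! ### The Atkin-Lehner involutions of the two levels -/

/-- `α_ℓ ∘ α_p = α_p' ∘ α_ℓ` -/
theorem mrmc_al_al (y : modularFunctionFieldBar M) :
    mrmcAl M p ℓ (heckeAlphaBar Qb M p y) =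
      heckeAlphaBar Qb (M * ℓ) p (heckeAlphaBar Qb M ℓ y) := by
  apply Subtype.ext
  rw [mrmcAl_coe, coe_heckeAlphaBar, coe_heckeAlphaBar, coe_heckeAlphaBar]

/-- `α_ℓ ∘ β_p = β_p' ∘ α_ℓ` -/
theorem mrmc_al_be (y : modularFunctionFieldBar M) :
    mrmcAl M p ℓ (heckeBetaBar Qb M p y) =
      heckeBetaBar Qb (M * ℓ) p (heckeAlphaBar Qb M ℓ y) := by
  apply Subtype.ext
  rw [mrmcAl_coe, coe_heckeBetaBar, coe_heckeBetaBar, coe_heckeAlphaBar]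

/-- `β_ℓ ∘ α_p = α_p' ∘ β_ℓ` -/
theorem mrmc_be_al (y : modularFunctionFieldBar M) :
    mrmcBe M p ℓ (heckeAlphaBar Qb M p y) =
      heckeAlphaBar Qb (M * ℓ) p (heckeBetaBar Qb M ℓ y) := by
  apply Subtype.ext
  rw [mrmcBe_coe, coe_heckeAlphaBar, coe_heckeAlphaBar, coe_heckeBetaBar]

/-- `β_ℓ ∘ β_p = β_p' ∘ β_ℓ` -/
theorem mrmc_be_be (y : modularFunctionFieldBar M) :
    mrmcBe M p ℓ (heckeBetaBar Qb M p y) =
      heckeBetaBar Qb (M * ℓ) p (heckeBetaBar Qb M ℓ y) := by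
  apply Subtype.ext
  rw [mrmcBe_coe, coe_heckeBetaBar, coe_heckeBetaBar, coe_heckeBetaBar]
  exact mrmc_qExpand_comm ℓ p _

/-- **the Atkin-Lehner involutions commute with `α_ℓ`.** -/
theorem mrmc_w_al (hpM : ¬ p ∣ M) (hpMℓ : ¬ p ∣ M * ℓ) (x : modularFunctionFieldBar (M * p)) :
    ttrW (M * ℓ) hpMℓ (mrmcAl M p ℓ x) = mrmcAl M p ℓ (ttrW M hpM x) := by
  have h := mrmc_hom_ext M
    (((ttrW (M * ℓ) hpMℓ : modularFunctionFieldBar (M * ℓ * p) →+*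
      modularFunctionFieldBar (M * ℓ * p))).comp (mrmcAl M p ℓ).toRingHom)
    ((mrmcAl M p ℓ).toRingHom.comp
      (ttrW M hpM : modularFunctionFieldBar (M * p) →+* modularFunctionFieldBar (M * p)))
    (fun y => ?_) (fun y => ?_)
  · exact RingHom.congr_fun h x
  · show ttrW (M * ℓ) hpMℓ (mrmcAl M p ℓ (heckeAlphaBar Qb M p y)) =
      mrmcAl M p ℓ (ttrW M hpM (heckeAlphaBar Qb M p y))
    rw [mrmc_al_al, ttrW_alpha, ttrW_alpha, mrmc_al_be]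
  · show ttrW (M * ℓ) hpMℓ (mrmcAl M p ℓ (heckeBetaBar Qb M p y)) =
      mrmcAl M p ℓ (ttrW M hpM (heckeBetaBar Qb M p y))
    rw [mrmc_al_be, ttrW_beta, ttrW_beta, mrmc_al_al]

/-- **the Atkin-Lehner involutions commute with `β_ℓ`.** -/
theorem mrmc_w_be (hpM : ¬ p ∣ M) (hpMℓ : ¬ p ∣ M * ℓ) (x : modularFunctionFieldBar (M * p)) :
    ttrW (M * ℓ) hpMℓ (mrmcBe M p ℓ x) = mrmcBe M p ℓ (ttrW M hpM x) := by
  have h := mrmc_hom_ext M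
    (((ttrW (M * ℓ) hpMℓ : modularFunctionFieldBar (M * ℓ * p) →+*
      modularFunctionFieldBar (M * ℓ * p))).comp (mrmcBe M p ℓ).toRingHom)
    ((mrmcBe M p ℓ).toRingHom.comp
      (ttrW M hpM : modularFunctionFieldBar (M * p) →+* modularFunctionFieldBar (M * p)))
    (fun y => ?_) (fun y => ?_)
  · exact RingHom.congr_fun h x
  · show ttrW (M * ℓ) hpMℓ (mrmcBe M p ℓ (heckeAlphaBar Qb M p y)) =
      mrmcBe M p ℓ (ttrW M hpM (heckeAlphaBar Qb M p y))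
    rw [mrmc_be_al, ttrW_alpha, ttrW_alpha, mrmc_be_be]
  · show ttrW (M * ℓ) hpMℓ (mrmcBe M p ℓ (heckeBetaBar Qb M p y)) =
      mrmcBe M p ℓ (ttrW M hpM (heckeBetaBar Qb M p y))
    rw [mrmc_be_be, ttrW_beta, ttrW_beta, mrmc_be_al]

/-! ### Index 2 -/

/-- **(α), index 2** : `α_ℓ V₂ ⊆ V₂'` and `red₂' ∘ α_ℓ = ᾱ ∘ red₂`. -/
theorem mrmc_al_V2 (hpM : ¬ p ∣ M) (hpMℓ : ¬ p ∣ M * ℓ) (hA : A.LiesOverPrime p)
    (x : modularFunctionFieldBar (M * p)) (hx : x ∈ ttraV2 M A hpM hA) :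
    ∃ h : mrmcAl M p ℓ x ∈ ttraV2 (M * ℓ) A hpMℓ hA,
      ttraRed2 (M * ℓ) A hpMℓ hA ⟨mrmcAl M p ℓ x, h⟩ =
        mrmAlB (ResidueField A) M ℓ (ttraRed2 M A hpM hA ⟨x, hx⟩) :=
  mrmc_V2_abs (ttrV1 M A hpM hA) (ttrV1 (M * ℓ) A hpMℓ hA) (ttrW M hpM) (ttrW (M * ℓ) hpMℓ)
    (ttrRed1 M A hA) (ttrRed1 (M * ℓ) A hA) (mrmcAl M p ℓ) (mrmAlB (ResidueField A) M ℓ)
    (mrmc_al_V1 M p ℓ A hpM hpMℓ hA) (mrmc_w_al M p ℓ hpM hpMℓ) x hx

/-- **(β), index 2** : `β_ℓ V₂ ⊆ V₂'` and `red₂' ∘ β_ℓ = β̄ ∘ red₂`. -/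
theorem mrmc_be_V2 (hpM : ¬ p ∣ M) (hpMℓ : ¬ p ∣ M * ℓ) (hA : A.LiesOverPrime p)
    (x : modularFunctionFieldBar (M * p)) (hx : x ∈ ttraV2 M A hpM hA) :
    ∃ h : mrmcBe M p ℓ x ∈ ttraV2 (M * ℓ) A hpMℓ hA,
      ttraRed2 (M * ℓ) A hpMℓ hA ⟨mrmcBe M p ℓ x, h⟩ =
        mrmBeB (ResidueField A) M ℓ (ttraRed2 M A hpM hA ⟨x, hx⟩) :=
  mrmc_V2_abs (ttrV1 M A hpM hA) (ttrV1 (M * ℓ) A hpMℓ hA) (ttrW M hpM) (ttrW (M * ℓ) hpMℓ)
    (ttrRed1 M A hA) (ttrRed1 (M * ℓ) A hA) (mrmcBe M p ℓ) (mrmBeB (ResidueField A) M ℓ)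
    (mrmc_be_V1 M p ℓ A hpM hpMℓ hA) (mrmc_w_be M p ℓ hpM hpMℓ) x hx

/-! ### `MrhwCommSpec` (the input of block `mrh` from `MR/Hecke/WComm.lean`) -/

/-- `p ∤ M ℓ` for a prime `ℓ ∤ M p`. -/
theorem mrmc_hpMℓ (hpM : ¬ p ∣ M) (hℓ : ℓ.Prime) (hℓM : ¬ ℓ ∣ M * p) : ¬ p ∣ M * ℓ := by
  intro h
  have hp : p.Prime := Fact.out
  rcases (Nat.Prime.dvd_mul hp).1 h with h1 | h1
  · exact hpM h1
  · have : p = ℓ := (Nat.prime_dvd_prime_iff_eq hp hℓ).1 h1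
    exact hℓM (this ▸ dvd_mul_left p M)

/-- **`MrhwCommSpec`** : the Atkin-Lehner involution of `F((M ℓ) p)`, transported to `F((M p) ℓ)`,
lifts `w = ttrW M hpM` along both `α_ℓ` and `β_ℓ`. -/
theorem mrmc_wComm' (hpM : ¬ p ∣ M) (hpMℓ : ¬ p ∣ M * ℓ) : MrhwCommSpec M p ℓ hpM := by
  refine ⟨((mrmcCast (mrmc_level_eq M p ℓ)).toRingEquiv.trans (ttrW (M * ℓ) hpMℓ)).trans
    (mrmcCast (mrmc_level_eq M p ℓ)).symm.toRingEquiv, fun x => ?_, fun x => ?_⟩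
  · show (mrmcCast (mrmc_level_eq M p ℓ)).symm (ttrW (M * ℓ) hpMℓ (mrmcAl M p ℓ x)) =
      heckeAlphaBar Qb (M * p) ℓ (ttrW M hpM x)
    rw [AlgEquiv.symm_apply_eq, mrmc_w_al M p ℓ hpM hpMℓ]
    rfl
  · show (mrmcCast (mrmc_level_eq M p ℓ)).symm (ttrW (M * ℓ) hpMℓ (mrmcBe M p ℓ x)) =
      heckeBetaBar Qb (M * p) ℓ (ttrW M hpM x)
    rw [AlgEquiv.symm_apply_eq, mrmc_w_be M p ℓ hpM hpMℓ]
    rfl

/-- **`MrhwCommSpec` for every prime `ℓ ∤ M p`** (the literal hypothesis `hw` of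
`mrm_comp_closed` / `mrm_JSpec`). -/
theorem mrmc_wComm (hpM : ¬ p ∣ M) (hℓ : ℓ.Prime) (hℓM : ¬ ℓ ∣ M * p) :
    MrhwCommSpec M p ℓ hpM :=
  mrmc_wComm' M p ℓ hpM (mrmc_hpMℓ M p ℓ hpM hℓ hℓM)

end Level

end Fermat.Agent.MR
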