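import Mathlib
import Fermat.Agent.MR.M.Comp
import Fermat.Agent.TT.Red2.V2Gal

/-!
# PROGRAM MR (S44), block `mrm`: TRANSPORT BY THE ATKIN-LEHNER INVOLUTION `w`

Owner: helper26.  Namespace `Fermat.Agent.MR`, prefix `mrm`.

* `mrmW M hpM : SemilinearAut ℚ̄ F(M p)` : `w = ttrW` (trivial on the constants);
* `mrmWV M hpM V := w_* V ≤ J₀(M p)`;
* `mrm_w_galois` : `w_*` commutes with `G_ℚ` on `J₀(M p)`;
* `mrm_w_hecke` : `w_*` commutes with `T_ℓ` on `n`-torsion classes (from `MrmWHeckeSpec`);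
* `mrm_w_mrjV` : `MrjV` is stable under `V ↦ w_* V`.
-/

set_option autoImplicit false
set_option linter.unusedSectionVars false
set_option linter.unusedVariables false
set_option linter.style.haveILetI false

noncomputable section

namespace Fermat.Agent.MR

open AlgebraicCurve IsLocalRing ModularCurve Fermat.Agent.G Fermat.Agent.FF Fermat.Agent.TT
  Fermat.Agent.SS

variable (M : ℕ) [NeZero M] {p : ℕ} [Fact p.Prime] [NeZero p]
variable (hpM : ¬ p ∣ M)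

/-- `w = ttrW` as a semilinear automorphism (trivial on the constants). -/
def mrmW : SemilinearAut FfQb ↥(modularFunctionFieldBar (M * p)) :=
  ⟨(ttrW M hpM, 1), fun a => ttrW_const M hpM a⟩

theorem mrmW_smul (x : modularFunctionFieldBar (M * p)) : mrmW M hpM • x = ttrW M hpM x := rfl

/-- `w` commutes with the arithmetic Galois action, in the group of semilinear automorphisms. -/
theorem mrmW_comm (σ : FfGal) :
    mrmW M hpM * ffipG (M * p) σ = ffipG (M * p) σ * mrmW M hpM := by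
  refine Subtype.ext (Prod.ext (RingEquiv.ext fun x => ?_) ?_)
  · exact (ttrw_galois M hpM σ x).symm
  · show (1 : RingAut FfQb) * _ = _ * (1 : RingAut FfQb)
    rw [one_mul, mul_one]

/-- `w_*` commutes with `G_ℚ` on `J₀(M p)`. -/
theorem mrm_w_galois (σ : FfGal) (x : JZero (M * p)) :
    σ • (mrmW M hpM • x) = mrmW M hpM • (σ • x) := by
  rw [galois_smul_pic0_def, galois_smul_pic0_def, ← mul_smul, ← mul_smul]
  exact congrArg (· • x) (mrmW_comm M hpM σ).symm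

/-- `w_*` as an additive automorphism of `J₀(M p)`. -/
def mrmWHom : JZero (M * p) →+ JZero (M * p) :=
  DistribSMul.toAddMonoidHom (JZero (M * p)) (mrmW M hpM)

theorem mrmWHom_apply (x : JZero (M * p)) : mrmWHom M hpM x = mrmW M hpM • x := rfl

/-- `w_* V`. -/
def mrmWV (V : AddSubgroup (JZero (M * p))) : AddSubgroup (JZero (M * p)) :=
  V.map (mrmWHom M hpM)

theorem mem_mrmWV {V : AddSubgroup (JZero (M * p))} {y : JZero (M * p)} :
    y ∈ mrmWV M hpM V ↔ ∃ x ∈ V, mrmW M hpM • x = y := Iff.rfl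

theorem smul_mem_mrmWV {V : AddSubgroup (JZero (M * p))} {x : JZero (M * p)} (hx : x ∈ V) :
    mrmW M hpM • x ∈ mrmWV M hpM V := ⟨x, hx, rfl⟩

theorem mrmW_injective : Function.Injective (mrmWHom M hpM) :=
  MulAction.injective (mrmW M hpM)

/-- the pointwise stabiliser does not change. -/
theorem mrm_stab_wV (V : AddSubgroup (JZero (M * p))) :
    mraStab (mrmWV M hpM V) = mraStab V := by
  ext σ
  constructor
  · intro h x hx
    have h1 := h _ (smul_mem_mrmWV M hpM hx)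
    rw [mrm_w_galois] at h1
    exact MulAction.injective (mrmW M hpM) h1
  · rintro h y ⟨x, hx, rfl⟩
    show σ • (mrmW M hpM • x) = mrmW M hpM • x
    rw [mrm_w_galois, h x hx]

theorem mrm_H_wV (𝔸 : ValuationSubring FfQb) (V : AddSubgroup (JZero (M * p))) :
    mraH 𝔸 (mrmWV M hpM V) = mraH 𝔸 V := by
  unfold mraH
  rw [mrm_stab_wV]

/-- the shape is transported. -/
theorem mrm_shape_wV (𝔸 : ValuationSubring FfQb) {V : AddSubgroup (JZero (M * p))}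
    (h : MraShape p 𝔸 V) : MraShape p 𝔸 (mrmWV M hpM V) := by
  obtain ⟨hc, V', hV', hc', h1, h2⟩ := h
  have hcard : ∀ U : AddSubgroup (JZero (M * p)), Nat.card ↥(mrmWV M hpM U) = Nat.card ↥U :=
    fun U => Nat.card_congr (U.equivMapOfInjective _ (mrmW_injective M hpM)).symm.toEquiv
  refine ⟨by rw [hcard, hc], mrmWV M hpM V', AddSubgroup.map_mono hV', by rw [hcard, hc'], ?_, ?_⟩
  · rintro σ hσ y ⟨x, hx, rfl⟩
    refine ⟨σ • x - x, h1 σ hσ x hx, ?_⟩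
    rw [mrmWHom_apply, mrmWHom_apply, smul_sub, mrm_w_galois]
  · rintro σ hσ a ha y ⟨x, hx, rfl⟩
    show σ • (mrmW M hpM • x) = a • (mrmW M hpM • x)
    rw [mrm_w_galois, h2 σ hσ a ha x hx]
    exact map_nsmul (mrmWHom M hpM) a x

/-- the order of `w f` at `P` is the order of `f` at `w⁻¹ P`. -/
theorem mrm_ord_w (P : Place FfQb ↥(modularFunctionFieldBar (M * p)))
    (f : modularFunctionFieldBar (M * p)) :
    P.ord (ttrW M hpM f) = ((mrmW M hpM)⁻¹ • P).ord f := by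
  have h := SemilinearAut.ord_smul (mrmW M hpM) ((mrmW M hpM)⁻¹ • P) f
  rw [smul_inv_smul] at h
  exact h

/-- **`w_*` commutes with `T_ℓ` on torsion classes.** -/
theorem mrm_w_hecke (hw : MrmWHeckeSpec M hpM) (ℓ : ℕ) (hℓ : ℓ.Prime) (hℓN : ¬ ℓ ∣ M * p)
    (n : ℕ) (hn : n ≠ 0) (x : JZero (M * p)) (hx : n • x = 0) :
    heckeOperatorBar (M * p) ⟨ℓ, hℓ⟩ (mrmW M hpM • x) =
      mrmW M hpM • heckeOperatorBar (M * p) ⟨ℓ, hℓ⟩ x := by
  haveI : NeZero ℓ := ⟨hℓ.ne_zero⟩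
  have hn' : (n : ℤ) ≠ 0 := by exact_mod_cast hn
  obtain ⟨D, rfl⟩ := Pic0.mk_surjective x
  have h0 : Pic0.mk (n • D) = 0 := hx
  obtain ⟨f, hf0, hf⟩ := mrp_mk_eq_zero_iff.1 h0
  have hD : ∀ P : Place FfQb ↥(modularFunctionFieldBar (M * p)),
      (n : ℤ) * (D : Divisor FfQb ↥(modularFunctionFieldBar (M * p))) P = P.ord f := by
    intro P
    rw [← hf P, AddSubgroup.coe_nsmul, Finsupp.smul_apply, nsmul_eq_mul]
  obtain ⟨E, hTE, hg0, hE⟩ := gff_hecke_class (M * p) ℓ hℓ D n f hf0 hD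
  set D' := SemilinearAut.degZeroSMulHom (mrmW M hpM) D with hD'def
  have hD' : ∀ P : Place FfQb ↥(modularFunctionFieldBar (M * p)),
      (n : ℤ) * (D' : Divisor FfQb ↥(modularFunctionFieldBar (M * p))) P =
        P.ord (ttrW M hpM f) := by
    intro P
    rw [hD'def, SemilinearAut.coe_degZeroSMulHom, SemilinearAut.divisor_smul_apply, hD,
      mrm_ord_w]
  have hf0' : ttrW M hpM f ≠ 0 := (map_ne_zero _).2 hf0
  obtain ⟨E', hTE', hg0', hE'⟩ := gff_hecke_class (M * p) ℓ hℓ D' n (ttrW M hpM f) hf0' hD'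
  have hEE : E' = SemilinearAut.degZeroSMulHom (mrmW M hpM) E := by
    apply Subtype.ext
    ext P
    rw [SemilinearAut.coe_degZeroSMulHom, SemilinearAut.divisor_smul_apply]
    have h1 := hE' P
    rw [hw ℓ hℓ hℓN f, mrm_ord_w, ← hE] at h1
    exact mul_left_cancel₀ hn' h1
  rw [SemilinearAut.pic0_smul_mk, hTE', hTE, SemilinearAut.pic0_smul_mk, hEE]

/-- **`MrjV` is stable under `V ↦ w_* V`.** -/
theorem mrm_w_mrjV (𝔸 : ValuationSubring FfQb) (hw : MrmWHeckeSpec M hpM)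
    {good : Nat.Primes → Prop} {a : Nat.Primes → ℤ} {V : AddSubgroup (JZero (M * p))}
    (hgood : ∀ ℓ : Nat.Primes, good ℓ → ¬ (ℓ : ℕ) ∣ M * p) (hV : MrjV M 𝔸 good a V) :
    MrjV M 𝔸 good a (mrmWV M hpM V) where
  tors := by
    rintro y ⟨x, hx, rfl⟩
    rw [← map_nsmul, hV.tors x hx, map_zero]
  stable := by
    rintro σ hσ y ⟨x, hx, rfl⟩
    exact ⟨σ • x, hV.stable σ hσ x hx, (mrm_w_galois M hpM σ x).symm⟩
  eigen := by
    rintro ℓ hℓ y ⟨x, hx, rfl⟩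
    have hp : p.Prime := Fact.out
    rw [mrmWHom_apply]
    have h1 := mrm_w_hecke M hpM hw ℓ ℓ.2 (hgood ℓ hℓ) p hp.ne_zero x (hV.tors x hx)
    rw [show (⟨(ℓ : ℕ), ℓ.2⟩ : Nat.Primes) = ℓ from rfl] at h1
    rw [h1, hV.eigen ℓ hℓ x hx, SemilinearAut.smul_zsmul]
  shape := mrm_shape_wV M hpM 𝔸 hV.shape
  p1 := by
    rw [mrm_H_wV]
    exact hV.p1

/-- **(COMP₂) from (COMP₁)** by transport along `w`. -/
theorem mrm_comp₂ (𝔸 : ValuationSubring FfQb) (h𝔸 : 𝔸.LiesOverPrime p)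
    (hw : MrmWHeckeSpec M hpM) (h1 : MrjCompSpec₁ M 𝔸 hpM h𝔸) : MrjCompSpec₂ M 𝔸 hpM h𝔸 := by
  intro hp5 hsq good a V hgood hV hne D f hf hf0 hDV hD
  have hfU : TtalIsU (ttrV1 M 𝔸 hpM h𝔸) (ttrW M hpM f) :=
    ⟨hf.1, by rw [← map_inv₀]; exact hf.2⟩
  have hf0' : ttrW M hpM f ≠ 0 := (map_ne_zero _).2 hf0
  have hD' : ∀ P : Place FfQb ↥(modularFunctionFieldBar (M * p)),
      (p : ℤ) * (SemilinearAut.degZeroSMulHom (mrmW M hpM) D :
        Divisor FfQb ↥(modularFunctionFieldBar (M * p))) P = P.ord (ttrW M hpM f) := by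
    intro P
    rw [SemilinearAut.coe_degZeroSMulHom, SemilinearAut.divisor_smul_apply, hD, mrm_ord_w]
  have hmem : Pic0.mk (SemilinearAut.degZeroSMulHom (mrmW M hpM) D) ∈ mrmWV M hpM V :=
    ⟨Pic0.mk D, hDV, (SemilinearAut.pic0_smul_mk (mrmW M hpM) D)⟩
  exact h1 hp5 hsq good a (mrmWV M hpM V) hgood (mrm_w_mrjV M hpM 𝔸 hw hgood hV) hne
    (SemilinearAut.degZeroSMulHom (mrmW M hpM) D) (ttrW M hpM f) hfU hf0' hmem hD'

/-- **BOTH COMPONENTS** from the block statements of `mrm` / `mrh` and the leaf package. -/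
theorem mrm_comp (𝔸 : ValuationSubring FfQb) (h𝔸 : 𝔸.LiesOverPrime p)
    (hH : MrmHeckeRedSpec M 𝔸 hpM h𝔸) (hE : MrmEisSpec M (p := p) 𝔸)
    (hw : MrmWHeckeSpec M hpM) (hleaf : MrmLeafSpec M 𝔸 hpM h𝔸) :
    MrjCompSpec₁ M 𝔸 hpM h𝔸 ∧ MrjCompSpec₂ M 𝔸 hpM h𝔸 :=
  have h1 := mrm_comp₁ M 𝔸 hpM h𝔸 (mrm_main M 𝔸 hpM h𝔸 hH hE) hleaf
  ⟨h1, mrm_comp₂ M hpM 𝔸 h𝔸 hw h1⟩

end Fermat.Agent.MR
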