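import Mathlib
import Fermat.Agent.MR.M.WTrans
import Fermat.Agent.MR.Hecke.Closed
import Fermat.Agent.MR.J.Top
import Fermat.Agent.MR.Mu.EisInst
import Fermat.Agent.MR.M.LevelCast
import Fermat.Agent.MR.J.Landed

/-!
# PROGRAM MR (S44), block `mrm`: PLUG FILE of the J-side (what is still open)

Owner: helper26.  Namespace `Fermat.Agent.MR`, prefix `mrm`.

* `mrm_eisSpec_closed` : `MrmEisSpec` with NO hypothesis (helper20's `mrme_eisSpec'` + helper6 and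
  helper18's residue degree + main's separating generator `j̄`);
* `mrm_comp_closed` : both component statements from the TWO open inputs of the blocks
  `mrm`/`mrh`: `MrhwCommSpec` (helper8), `MrmLeafSpec` (helper7, helper20, helper1, helper29,
  helper23, helper12); `MrmHeckeRedSpec` is closed by helper6 + helper18.
* `mrm_JSpec` : `MraJSpec` from these and the three landed-side Props of `MR/J/Spec.lean`;
* `mrm_comp_of_leaf`, **`mrm_JSpec_of_leaf`** : `MrhwCommSpec` discharged by `mrmc_wComm`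
  (`MR/M/LevelCast.lean`) and the three landed-side Props by helper14's `mrjl_ker`, `mrjl_gam`,
  `mrjl_norm` (`MR/J/Landed.lean`): **`MraJSpec` from `5 ≤ p → MrmLeafSpec` ALONE**.
-/

set_option autoImplicit false
set_option linter.unusedSectionVars false
set_option linter.unusedVariables false
set_option linter.style.haveILetI false

noncomputable section

namespace Fermat.Agent.MR

open AlgebraicCurve IsLocalRing ModularCurve Fermat.Agent.G Fermat.Agent.FF Fermat.Agent.TT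
  Fermat.Agent.SS

/-- **(M3) `MrmEisSpec`, CLOSED**: helper20's `mrme_eisSpec'` with the separating generator `j̄`
(main `s18v_isSepGen_res` at the level `M ℓ`) and helper6/helper18's residue degree `ℓ + 1`. -/
theorem mrm_eisSpec_closed (M : ℕ) [NeZero M] {p : ℕ} [Fact p.Prime] [NeZero p]
    (𝔸 : ValuationSubring FfQb) (hpM : ¬ p ∣ M) (h𝔸 : 𝔸.LiesOverPrime p) :
    MrmEisSpec M (p := p) 𝔸 := by
  haveI : CharP (ResidueField 𝔸) p := ttr_charP 𝔸 h𝔸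
  haveI : IsAlgClosed (ResidueField 𝔸) := grd_isAlgClosed_residue 𝔸
  refine mrme_eisSpec' M 𝔸
    (⟨jqModC (ResidueField 𝔸), jqModC_mem_full (ResidueField 𝔸) M⟩ :
      modularFunctionFieldFullC (ResidueField 𝔸) M)
    (fun ℓ _ hℓ hℓN => ?_)
    (fun ℓ _ hℓ hℓN => mrh_finrankAlong_mrmAlB M 𝔸 hpM h𝔸 ℓ hℓ hℓN)
  exact Fermat.Agent.S18.s18v_isSepGen_res (ℓ := p) (ResidueField 𝔸) (M * ℓ)
    (mrh_not_dvd_mul M p ℓ hpM hℓ hℓN)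

/-- both components, with `MrmHeckeRedSpec` and `MrmWHeckeSpec` discharged by block `mrh`. -/
theorem mrm_comp_closed (M : ℕ) [NeZero M] {p : ℕ} [Fact p.Prime] [NeZero p]
    (𝔸 : ValuationSubring FfQb) (hpM : ¬ p ∣ M) (h𝔸 : 𝔸.LiesOverPrime p)
    (hw : ∀ (ℓ : ℕ) [NeZero ℓ], ℓ.Prime → ¬ ℓ ∣ M * p → MrhwCommSpec M p ℓ hpM)
    (hleaf : MrmLeafSpec M 𝔸 hpM h𝔸) :
    MrjCompSpec₁ M 𝔸 hpM h𝔸 ∧ MrjCompSpec₂ M 𝔸 hpM h𝔸 :=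
  mrm_comp M hpM 𝔸 h𝔸 (mrh_mrmHeckeRedSpec_closed M 𝔸 hpM h𝔸)
    (mrm_eisSpec_closed M 𝔸 hpM h𝔸) (mrh_mrmWHeckeSpec M hpM hw) hleaf

/-- **the J-side** from the open inputs of `mrm`/`mrh` and the three landed-side Props. -/
theorem mrm_JSpec
    (hw : ∀ (M : ℕ) [NeZero M] (p : ℕ) [Fact p.Prime] [NeZero p] (hpM : ¬ p ∣ M)
      (ℓ : ℕ) [NeZero ℓ], ℓ.Prime → ¬ ℓ ∣ M * p → MrhwCommSpec M p ℓ hpM)
    (hleaf : ∀ (M : ℕ) [NeZero M] (p : ℕ) [Fact p.Prime] [NeZero p] (𝔸 : ValuationSubring FfQb)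
      (hpM : ¬ p ∣ M) (h𝔸 : 𝔸.LiesOverPrime p), 5 ≤ p → MrmLeafSpec M 𝔸 hpM h𝔸)
    (hK : ∀ (M : ℕ) [NeZero M] (p : ℕ) [Fact p.Prime] [NeZero p] (𝔸 : ValuationSubring FfQb)
      (hpM : ¬ p ∣ M) (h𝔸 : 𝔸.LiesOverPrime p), 5 ≤ p → MrjKerSpec M 𝔸 hpM h𝔸)
    (hG : ∀ (M : ℕ) [NeZero M] (p : ℕ) [Fact p.Prime] [NeZero p] (𝔸 : ValuationSubring FfQb)
      (hpM : ¬ p ∣ M) (h𝔸 : 𝔸.LiesOverPrime p), 5 ≤ p → MrjGamSpec M 𝔸 hpM h𝔸)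
    (hN : ∀ (M : ℕ) [NeZero M] (p : ℕ) [Fact p.Prime] [NeZero p] (𝔸 : ValuationSubring FfQb)
      (hpM : ¬ p ∣ M) (h𝔸 : 𝔸.LiesOverPrime p), MrjNormSpec M 𝔸 hpM h𝔸) :
    MraJSpec :=
  mrj_JSpec
    (fun M _ p _ _ 𝔸 hpM h𝔸 h5 =>
      (mrm_comp_closed M 𝔸 hpM h𝔸 (hw M p hpM) (hleaf M p 𝔸 hpM h𝔸 h5)).1 h5)
    (fun M _ p _ _ 𝔸 hpM h𝔸 h5 =>
      (mrm_comp_closed M 𝔸 hpM h𝔸 (hw M p hpM) (hleaf M p 𝔸 hpM h𝔸 h5)).2 h5)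
    hK hG hN

/-- both components from the leaf package alone (`p ≥ 5`). -/
theorem mrm_comp_of_leaf (M : ℕ) [NeZero M] {p : ℕ} [Fact p.Prime] [NeZero p]
    (𝔸 : ValuationSubring FfQb) (hpM : ¬ p ∣ M) (h𝔸 : 𝔸.LiesOverPrime p)
    (hleaf : 5 ≤ p → MrmLeafSpec M 𝔸 hpM h𝔸) :
    MrjCompSpec₁ M 𝔸 hpM h𝔸 ∧ MrjCompSpec₂ M 𝔸 hpM h𝔸 :=
  ⟨fun h5 => (mrm_comp_closed M 𝔸 hpM h𝔸
      (fun ℓ _ hℓ hℓM => mrmc_wComm M p ℓ hpM hℓ hℓM) (hleaf h5)).1 h5,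
    fun h5 => (mrm_comp_closed M 𝔸 hpM h𝔸
      (fun ℓ _ hℓ hℓM => mrmc_wComm M p ℓ hpM hℓ hℓM) (hleaf h5)).2 h5⟩

/-- **THE J-SIDE FROM THE LEAF PACKAGE ALONE.** -/
theorem mrm_JSpec_of_leaf
    (hleaf : ∀ (M : ℕ) [NeZero M] (p : ℕ) [Fact p.Prime] [NeZero p] (𝔸 : ValuationSubring FfQb)
      (hpM : ¬ p ∣ M) (h𝔸 : 𝔸.LiesOverPrime p), 5 ≤ p → MrmLeafSpec M 𝔸 hpM h𝔸) :
    MraJSpec :=
  mrj_JSpec
    (fun M _ p _ _ 𝔸 hpM h𝔸 => (mrm_comp_of_leaf M 𝔸 hpM h𝔸 (hleaf M p 𝔸 hpM h𝔸)).1)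
    (fun M _ p _ _ 𝔸 hpM h𝔸 => (mrm_comp_of_leaf M 𝔸 hpM h𝔸 (hleaf M p 𝔸 hpM h𝔸)).2)
    (fun M _ p _ _ 𝔸 hpM h𝔸 h5 => mrjl_ker M 𝔸 hpM h𝔸 h5)
    (fun M _ p _ _ 𝔸 hpM h𝔸 h5 => mrjl_gam M 𝔸 hpM h𝔸 h5)
    (fun M _ p _ _ 𝔸 hpM h𝔸 => mrjl_norm M 𝔸 hpM h𝔸)

end Fermat.Agent.MR
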