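import Mathlib
import Fermat.Agent.MR.M.Main

/-!
# PROGRAM MR (S44), block `mrm`: THE SLOPE CALCULUS  (`mrmSlope`)

Owner: helper26.  Namespace `Fermat.Agent.MR`, prefix `mrm`.

Bridge between `MrmOrdAt` / `mrmSlope` (`MR/M/Spec.lean`) and helper1's `MrpRedOf`
(`MR/Sp/Spec.lean`): `mrmSlope K V red f Q = Q.ord g` for ANY reduction `g` of `f`; the slope is
additive, kills constants, commutes with powers and inverses.  Everything from ONE package
`H : MrpOne A V red` (at the concrete model: `mrm_one M A hpM hA`).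
-/

set_option autoImplicit false
set_option linter.unusedSectionVars false
set_option linter.unusedVariables false

noncomputable section

namespace Fermat.Agent.MR

open AlgebraicCurve IsLocalRing Fermat.Agent.TT

variable {K : Type*} [Field K] {A : ValuationSubring K} {F : Type*} [Field F] [Algebra K F]
variable {F' : Type*} [Field F'] [Algebra (ResidueField A) F']
variable {V : ValuationSubring F} {red : V →+* F'}

/-- `MrmOrdAt` in terms of helper1's reductions. -/
theorem mrm_ordAt_iff (H : MrpOne A V red) {f : F} (hf0 : f ≠ 0) (Q : Place (ResidueField A) F')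
    (n : ℤ) : MrmOrdAt K V red f Q n ↔ ∃ g : F', MrpRedOf K V red f g ∧ Q.ord g = n := by
  constructor
  · rintro ⟨c, h, hc0, hn⟩
    have hcf : algebraMap K F c * f ≠ 0 :=
      mul_ne_zero ((map_ne_zero_iff _ (algebraMap K F).injective).2 hc0) hf0
    exact ⟨_, ⟨c, h.1, hc0, mrp_red_ne_zero H hcf h, rfl⟩, hn⟩
  · rintro ⟨g, ⟨c, hc, hc0, hg, hr⟩, hn⟩
    exact ⟨c, mrp_redOf_isU H hc (by rw [hr]; exact hg), hc0, by rw [hr]; exact hn⟩

/-- the order at `Q` of a reduction does not depend on the reduction. -/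
theorem mrm_ord_redOf_unique (H : MrpOne A V red) {f : F} {g g' : F'}
    (h : MrpRedOf K V red f g) (h' : MrpRedOf K V red f g') (Q : Place (ResidueField A) F') :
    Q.ord g' = Q.ord g := by
  obtain ⟨a, ha0, rfl⟩ := mrp_redOf_unique H h h'
  have hg : g ≠ 0 := by obtain ⟨_, _, _, hg, _⟩ := h; exact hg
  rw [Place.ord_mul Q ((map_ne_zero_iff _ (algebraMap (ResidueField A) F').injective).2 ha0) hg,
    Fermat.Agent.S24.PlaceOrd.ord_algebraMap, zero_add]

/-- **the slope is the order of ANY reduction.** -/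
theorem mrm_slope_eq (H : MrpOne A V red) {f : F} {g : F'} (h : MrpRedOf K V red f g)
    (Q : Place (ResidueField A) F') : mrmSlope K V red f Q = Q.ord g := by
  have hf0 := mrp_redOf_ne_zero h
  have hex : ∃ n : ℤ, MrmOrdAt K V red f Q n := ⟨_, (mrm_ordAt_iff H hf0 Q _).2 ⟨g, h, rfl⟩⟩
  unfold mrmSlope
  rw [dif_pos hex]
  obtain ⟨g', h', hn⟩ := (mrm_ordAt_iff H hf0 Q _).1 hex.choose_spec
  rw [← hn]
  exact mrm_ord_redOf_unique H h h' Q

/-- the slope in terms of an explicit normalisation. -/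
theorem mrm_slope_eq_of_unit (H : MrpOne A V red) {f : F} (hf0 : f ≠ 0) {c : K} (hc0 : c ≠ 0)
    (h : TtalIsU V (algebraMap K F c * f)) (Q : Place (ResidueField A) F') :
    mrmSlope K V red f Q = Q.ord (red ⟨algebraMap K F c * f, h.1⟩) := by
  have hcf : algebraMap K F c * f ≠ 0 :=
    mul_ne_zero ((map_ne_zero_iff _ (algebraMap K F).injective).2 hc0) hf0
  exact mrm_slope_eq H ⟨c, h.1, hc0, mrp_red_ne_zero H hcf h, rfl⟩ Q

/-- the defining property of the slope. -/
theorem mrm_slope_ordAt (H : MrpOne A V red) {f : F} (hf0 : f ≠ 0)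
    (Q : Place (ResidueField A) F') : MrmOrdAt K V red f Q (mrmSlope K V red f Q) := by
  obtain ⟨g, hg⟩ := mrp_redOf_exists H hf0
  exact (mrm_ordAt_iff H hf0 Q _).2 ⟨g, hg, (mrm_slope_eq H hg Q).symm⟩

/-- uniqueness. -/
theorem mrm_slope_unique (H : MrpOne A V red) {f : F} (Q : Place (ResidueField A) F') {n : ℤ}
    (hn : MrmOrdAt K V red f Q n) : n = mrmSlope K V red f Q := by
  by_cases hf0 : f = 0
  · -- no normalisation of `0` reduces to a non-zero function, but `ord 0 = 0` and the slope is `0`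
    subst hf0
    obtain ⟨c, h, hc0, rfl⟩ := hn
    have e : (⟨algebraMap K F c * 0, h.1⟩ : V) = 0 := Subtype.ext (mul_zero _)
    rw [e, map_zero, Place.ord_zero]
    unfold mrmSlope
    split_ifs with hex
    · obtain ⟨c', h', hc'0, hn'⟩ := hex.choose_spec
      have e' : (⟨algebraMap K F c' * 0, h'.1⟩ : V) = 0 := Subtype.ext (mul_zero _)
      rw [← hn', e', map_zero, Place.ord_zero]
    · rfl
  · obtain ⟨g, hg, rfl⟩ := (mrm_ordAt_iff H hf0 Q n).1 hn
    exact (mrm_slope_eq H hg Q).symm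

/-- **additivity.** -/
theorem mrm_slope_mul (H : MrpOne A V red) {f f' : F} (hf : f ≠ 0) (hf' : f' ≠ 0)
    (Q : Place (ResidueField A) F') :
    mrmSlope K V red (f * f') Q = mrmSlope K V red f Q + mrmSlope K V red f' Q := by
  obtain ⟨g, hg⟩ := mrp_redOf_exists H hf
  obtain ⟨g', hg'⟩ := mrp_redOf_exists H hf'
  have hg0 : g ≠ 0 := by obtain ⟨_, _, _, h, _⟩ := hg; exact h
  have hg'0 : g' ≠ 0 := by obtain ⟨_, _, _, h, _⟩ := hg'; exact h
  rw [mrm_slope_eq H (mrp_redOf_mul hg hg') Q, mrm_slope_eq H hg Q, mrm_slope_eq H hg' Q,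
    Place.ord_mul Q hg0 hg'0]

/-- constants have slope `0`. -/
theorem mrm_slope_const (H : MrpOne A V red) (c : K) (Q : Place (ResidueField A) F') :
    mrmSlope K V red (algebraMap K F c) Q = 0 := by
  by_cases hc : c = 0
  · subst hc
    rw [map_zero]
    refine (mrm_slope_unique H Q (n := 0) ⟨1, ?_, one_ne_zero, ?_⟩).symm
    · rw [mul_zero]; exact ⟨V.zero_mem, by rw [inv_zero]; exact V.zero_mem⟩
    · have e : (⟨algebraMap K F 1 * 0, by rw [mul_zero]; exact V.zero_mem⟩ : V) = 0 :=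
        Subtype.ext (mul_zero _)
      rw [e, map_zero, Place.ord_zero]
  · rw [mrm_slope_eq H (mrp_redOf_const (K := K) (V := V) (red := red) hc) Q, Place.ord_one]

/-- natural powers. -/
theorem mrm_slope_pow (H : MrpOne A V red) {f : F} (hf : f ≠ 0) (n : ℕ)
    (Q : Place (ResidueField A) F') :
    mrmSlope K V red (f ^ n) Q = n * mrmSlope K V red f Q := by
  obtain ⟨g, hg⟩ := mrp_redOf_exists H hf
  rw [mrm_slope_eq H (mrp_redOf_pow hg n) Q, mrm_slope_eq H hg Q, mrp_ord_pow]

/-- inverses. -/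
theorem mrm_slope_inv (H : MrpOne A V red) {f : F} (hf : f ≠ 0) (Q : Place (ResidueField A) F') :
    mrmSlope K V red f⁻¹ Q = - mrmSlope K V red f Q := by
  obtain ⟨g, hg⟩ := mrp_redOf_exists H hf
  rw [mrm_slope_eq H (mrp_redOf_inv H hg) Q, mrm_slope_eq H hg Q, Place.ord_inv]

/-- integer powers. -/
theorem mrm_slope_zpow (H : MrpOne A V red) {f : F} (hf : f ≠ 0) (n : ℤ)
    (Q : Place (ResidueField A) F') :
    mrmSlope K V red (f ^ n) Q = n * mrmSlope K V red f Q := by
  obtain ⟨m, rfl | rfl⟩ := n.eq_nat_or_neg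
  · rw [zpow_natCast, mrm_slope_pow H hf]
  · rw [zpow_neg, zpow_natCast, mrm_slope_inv H (pow_ne_zero _ hf), mrm_slope_pow H hf]
    ring

/-- constant multiples. -/
theorem mrm_slope_const_mul (H : MrpOne A V red) {c : K} (hc : c ≠ 0) {f : F} (hf : f ≠ 0)
    (Q : Place (ResidueField A) F') :
    mrmSlope K V red (algebraMap K F c * f) Q = mrmSlope K V red f Q := by
  rw [mrm_slope_mul H ((map_ne_zero_iff _ (algebraMap K F).injective).2 hc) hf,
    mrm_slope_const H, zero_add]

end Fermat.Agent.MR
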