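/-
# MR program, J side: plug file for the leaf package (`mrm`, helper26)

Connects the owners' actual theorems to the four targets of `MR/M/Leaf.lean` at the `j`-atlas
(`p ≥ 5`):

* `mrm_discLeaf`, `mrm_discLeaf_j` : **(DISC)** CLOSED (helper29 `mrsd_discLeaf_j` + helper23
  `mrf_disc₁_j`);
* `mrm_W1Leaf_j` : **(W1)** CLOSED (helper12 `mrri_W1_closed`);
* `mrm_thickLeaf_j` : **(THICK)** CLOSED (helper7 `mrt_thickLeaf_j`);
* `mrm_isThick_of_germ` : a thickness function from the `E`-level germs (helper19 `mrntc_isThick`);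
* `mrm_leafSpec_j` : `MrmLeafSpec` from the existence of a thickness function (= exact node
  coordinates, blocks `mrk`/`mrn`), **(THICK)** and **(BALANCE)**;
* `mrm_JSpec_of_three` : `MraJSpec` from these three at every `(M, p, 𝔸)` with `p ≥ 5`;
* **`mrm_JSpec_of_germ_balance`** : `MraJSpec` from the two inputs still in progress: the germs
  `MrnxGermSpec` (blocks `mrk`) and **(BALANCE)**.
-/
import Fermat.Agent.MR.M.Leaf
import Fermat.Agent.MR.M.Plug
import Fermat.Agent.MR.Slope.DiscLeaf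
import Fermat.Agent.MR.Slope.DiscLeafJ
import Fermat.Agent.MR.False.CountJ
import Fermat.Agent.MR.Rigid.Top
import Fermat.Agent.MR.Thick.Closed
import Fermat.Agent.MR.Node.ThickClosed

set_option autoImplicit false
set_option linter.unusedSectionVars false
set_option linter.unusedVariables false
set_option linter.style.haveILetI false

noncomputable section

namespace Fermat.Agent.MR

open AlgebraicCurve IsLocalRing ModularCurve Fermat.Agent.G Fermat.Agent.FF Fermat.Agent.TT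
  Fermat.Agent.SS

local notation "Qb" => AlgebraicClosure ℚ

variable (M : ℕ) [NeZero M] {p : ℕ} [Fact p.Prime] [NeZero p]
variable (A : ValuationSubring Qb) (hpM : ¬ p ∣ M) (hA : A.LiesOverPrime p)

section AnyAtlas

variable {τ τ' : LaurentSeries ℤ} (hat : GrdAtlas M A τ τ')

/-- **(DISC) from the three named inputs of the slope program** (`mrsd_discLeaf`). -/
theorem mrm_discLeaf (hReg : MrnReg₁Spec M A hpM hA hat) (hDisc : MrnDisc₁Spec M A hpM hA hat)
    (hSep : MrsdSep₁ M A hpM hA hat) : MrmDiscLeaf M A hpM hA hat :=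
  mrsd_discLeaf M A hpM hA hat hReg hDisc hSep

end AnyAtlas

section JAtlas

variable {τ' : LaurentSeries ℤ} (hat : GrdAtlas M A (jqModC ℤ) τ')

/-- **(DISC), CLOSED at the `j`-atlas.** -/
theorem mrm_discLeaf_j (h5 : 5 ≤ p) : MrmDiscLeaf M A hpM hA hat :=
  mrsd_discLeaf_j M A hpM hA h5 hat (mrf_disc₁_j M A hpM hA hat)

/-- **(W1), CLOSED at the `j`-atlas.** -/
theorem mrm_W1Leaf_j (h5 : 5 ≤ p) : MrmW1Leaf M A hpM hA hat :=
  mrri_W1_closed hpM hA h5 hat

/-- **(THICK), CLOSED at the `j`-atlas.** -/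
theorem mrm_thickLeaf_j (h5 : 5 ≤ p) : MrmThickLeaf M A hpM hA hat :=
  mrt_thickLeaf_j M A hpM hA hat h5

/-- **a thickness function** from the `E`-level germs. -/
theorem mrm_isThick_of_germ (h5 : 5 ≤ p) (hG : MrnxGermSpec M A hpM hA) :
    ∃ E, MrmIsThick M A hpM hA hat E := by
  obtain ⟨E, hE, -⟩ := mrntc_isThick M A hpM hA hat h5 hG
  exact ⟨E, hE⟩

/-- **the leaf package at the `j`-atlas** from the three inputs. -/
theorem mrm_leafSpec_j (h5 : 5 ≤ p) (hE : ∃ E, MrmIsThick M A hpM hA hat E)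
    (hT : MrmThickLeaf M A hpM hA hat) (hB : MrmBalanceLeaf M A hpM hA hat) :
    MrmLeafSpec M A hpM hA :=
  mrm_leaf M A hpM hA hat hE hT hB (mrm_discLeaf_j M A hpM hA hat h5)
    (mrm_W1Leaf_j M A hpM hA hat h5)

end JAtlas

/-- **`MraJSpec` from the three open leaves** (existence of exact node coordinates, (THICK),
(BALANCE)) at the `j`-atlas of every `(M, p, 𝔸)` with `p ≥ 5`. -/
theorem mrm_JSpec_of_three
    (h : ∀ (M : ℕ) [NeZero M] (p : ℕ) [Fact p.Prime] [NeZero p] (A : ValuationSubring Qb)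
      (hpM : ¬ p ∣ M) (hA : A.LiesOverPrime p) (h5 : 5 ≤ p) (τ' : LaurentSeries ℤ)
      (hτ' : jqModC ℤ * τ' = 1),
      (∃ E, MrmIsThick M A hpM hA (ttrli_atlas_j M A hpM hA h5 hτ') E) ∧
      MrmThickLeaf M A hpM hA (ttrli_atlas_j M A hpM hA h5 hτ') ∧
      MrmBalanceLeaf M A hpM hA (ttrli_atlas_j M A hpM hA h5 hτ')) :
    MraJSpec :=
  mrm_JSpec_of_leaf fun M _ p _ _ A hpM hA h5 => by
    obtain ⟨τ', hτ'⟩ := grd_exists_jinv
    obtain ⟨hE, hT, hB⟩ := h M p A hpM hA h5 τ' hτ'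
    exact mrm_leafSpec_j M A hpM hA (ttrli_atlas_j M A hpM hA h5 hτ') h5 hE hT hB

/-- **`MraJSpec` from the two inputs still in progress**: the `E`-level germs (`mrk`) and
(BALANCE), at the `j`-atlas of every `(M, p, 𝔸)` with `p ≥ 5`. -/
theorem mrm_JSpec_of_germ_balance
    (hG : ∀ (M : ℕ) [NeZero M] (p : ℕ) [Fact p.Prime] [NeZero p] (A : ValuationSubring Qb)
      (hpM : ¬ p ∣ M) (hA : A.LiesOverPrime p), 5 ≤ p → MrnxGermSpec M A hpM hA)
    (hB : ∀ (M : ℕ) [NeZero M] (p : ℕ) [Fact p.Prime] [NeZero p] (A : ValuationSubring Qb)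
      (hpM : ¬ p ∣ M) (hA : A.LiesOverPrime p) (h5 : 5 ≤ p) (τ' : LaurentSeries ℤ)
      (hτ' : jqModC ℤ * τ' = 1),
      MrmBalanceLeaf M A hpM hA (ttrli_atlas_j M A hpM hA h5 hτ')) :
    MraJSpec :=
  mrm_JSpec_of_three fun M _ p _ _ A hpM hA h5 τ' hτ' =>
    ⟨mrm_isThick_of_germ M A hpM hA _ h5 (hG M p A hpM hA h5),
      mrm_thickLeaf_j M A hpM hA _ h5, hB M p A hpM hA h5 τ' hτ'⟩

end Fermat.Agent.MR
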