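/-
# MR program, J side: the closed form `mrm_JSpec_closed : MraJSpec` (`mrm`, helper26)

`MraJSpec` is the `J`-side input of `mra_S44` (`MR/Top.lean`).  It is assembled here from

* `mrm_JSpec_of_three` (`MR/M/LeafPlug.lean`): (DISC) and (W1) already discharged there
  (helper29 `mrsd_discLeaf_j`, helper23 `mrf_disc₁_j`, helper12 `mrri_W1_closed`);
* item 4a, a thickness function at every level: helper4 `mrkl_isThick_closed`
  (`MR/Kron/Closed4a.lean`);
* **(THICK)**: helper7 `mrt_thickLeaf_j` (`MR/Thick/Closed.lean`);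
* **(BALANCE)**: helper18 `mrmbb_balanceLeaf_closed` (`MR/Mu/BalanceClosed.lean`), its only
  input, the exact node coordinates at the levels `M ℓ`, being helper4 `mrkl_coordSpec_closed`.
-/
import Fermat.Agent.MR.M.LeafPlug
import Fermat.Agent.MR.Kron.Closed4a
import Fermat.Agent.MR.Mu.BalanceClosed

set_option autoImplicit false
set_option linter.unusedSectionVars false
set_option linter.unusedVariables false
set_option linter.style.haveILetI false

noncomputable section

namespace Fermat.Agent.MR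

open Polynomial ModularCurve AlgebraicCurve IsLocalRing IntermediateField
  Fermat.Agent.G Fermat.Agent.S18 Fermat.Agent.S24 Fermat.Agent.FF Fermat.Agent.TT
  Fermat.Agent.SS

local notation "Qb" => AlgebraicClosure ℚ

/-- **(BALANCE), closed**: at every level `M` prime to `p ≥ 5` and every `j`-atlas. -/
theorem mrm_balanceLeaf_closed (M : ℕ) [NeZero M] {p : ℕ} [Fact p.Prime] [NeZero p]
    (A : ValuationSubring Qb) (hpM : ¬ p ∣ M) (hA : A.LiesOverPrime p)
    {σ' : LaurentSeries ℤ} (hat : GrdAtlas M A (jqModC ℤ) σ') (h5 : 5 ≤ p) :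
    MrmBalanceLeaf M A hpM hA hat :=
  mrmbb_balanceLeaf_closed M A hpM hA hat h5 fun ℓ _ hℓ hℓN =>
    mrkl_coordSpec_closed (M * ℓ) A (mrmc_hpMℓ M p ℓ hpM hℓ hℓN) hA _ h5

/-- **The three leaf inputs of `mrm_JSpec_of_three`, closed** at every level `M` prime to
`p ≥ 5` and every `j`-atlas. -/
theorem mrm_three_closed (M : ℕ) [NeZero M] {p : ℕ} [Fact p.Prime] [NeZero p]
    (A : ValuationSubring Qb) (hpM : ¬ p ∣ M) (hA : A.LiesOverPrime p)
    {σ' : LaurentSeries ℤ} (hat : GrdAtlas M A (jqModC ℤ) σ') (h5 : 5 ≤ p) :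
    (∃ E, MrmIsThick M A hpM hA hat E) ∧ MrmThickLeaf M A hpM hA hat ∧
      MrmBalanceLeaf M A hpM hA hat :=
  ⟨(mrkl_isThick_closed M A hpM hA hat h5).imp fun _ h => h.1,
    mrt_thickLeaf_j M A hpM hA hat h5, mrm_balanceLeaf_closed M A hpM hA hat h5⟩

/-- **`MraJSpec`, closed** (hypothesis-free): the `J`-side input of `mra_S44`. -/
theorem mrm_JSpec_closed : MraJSpec :=
  mrm_JSpec_of_three fun M _ p _ _ A hpM hA h5 _ hτ' =>
    mrm_three_closed M A hpM hA (ttrli_atlas_j M A hpM hA h5 hτ') h5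

end Fermat.Agent.MR
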